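/-
S29 / S42, Program A, leaf (ROOT) of the design #1835 = (K1) of #1843 (helper85):
GLOBAL `p`-TH ROOTS OF MEROMORPHIC FUNCTIONS ON THE UPPER HALF PLANE.

Convention: a meromorphic function on the upper half plane is a function `g : ℂ → ℂ` with
`MeromorphicNFOn g UH`, where `UH = {z | 0 < z.im}`; the normal form (value `0` at poles) makes
all identities hold pointwise on `UH`.

Main results:
* `root_unique_on`  : on a preconnected open set two `p`-th roots differ by a `p`-th root of unity;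
* `exists_log_ball` : logarithm of a zero-free analytic function on a disc;
* `exists_root_ball`: local root on a disc with compact closure in the domain;
* `exists_root_of_exhaustion` : gluing along an exhaustion by discs;
* `exists_root`     : a meromorphic function on `UH` in normal form, nowhere locally zero, all of
  whose orders are divisible by `p`, is the `p`-th power of such a function;
* `exists_root_of_meromorphicOn` : the same for a function which is only `MeromorphicOn`.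

Mathlib only.
-/
import Mathlib

set_option autoImplicit false

noncomputable section

namespace Fermat.Agent.S29.H85

open Filter Topology Set Metric Function

/-- Two functions in normal form on an open set which agree on a codiscrete subset agree
everywhere on it. -/
theorem eqOn_of_codiscreteWithin {U : Set ℂ} (hU : IsOpen U) {f g : ℂ → ℂ}
    (hf : MeromorphicNFOn f U) (hg : MeromorphicNFOn g U)
    (h : f =ᶠ[codiscreteWithin U] g) : EqOn f g U := by
  intro z hz
  have h1 : f =ᶠ[𝓝[≠] z] g := by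
    have h2 := (mem_codiscreteWithin_iff_forall_mem_nhdsNE.1 h) z hz
    have h3 : U ∈ 𝓝[≠] z := mem_nhdsWithin_of_mem_nhds (hU.mem_nhds hz)
    filter_upwards [h2, h3] with y hy hyU
    rcases hy with hy | hy
    · exact hy
    · exact absurd hyU hy
  exact ((hf hz).eventuallyEq_nhdsNE_iff_eventuallyEq_nhds (hg hz)).1 h1 |>.eq_of_nhds

/-- On an open set, pointwise equality gives equality of orders. -/
theorem order_congr_of_eqOn {U : Set ℂ} (hU : IsOpen U) {f g : ℂ → ℂ} (h : EqOn f g U)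
    {z : ℂ} (hz : z ∈ U) : meromorphicOrderAt f z = meromorphicOrderAt g z := by
  apply meromorphicOrderAt_congr
  filter_upwards [mem_nhdsWithin_of_mem_nhds (hU.mem_nhds hz)] with y hy using h hy

/-- The order of a `p`-th root. -/
theorem order_of_pow_eq {U : Set ℂ} (hU : IsOpen U) {p : ℕ} {f g : ℂ → ℂ}
    (hg : MeromorphicOn g U) (h : ∀ z ∈ U, g z ^ p = f z) {z : ℂ} (hz : z ∈ U) :
    (p : WithTop ℤ) * meromorphicOrderAt g z = meromorphicOrderAt f z := by
  rw [← meromorphicOrderAt_pow (hg z hz)]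
  exact order_congr_of_eqOn hU (f := g ^ p) (fun y hy => by simpa using h y hy) hz

theorem order_ne_top_of_pow_eq {U : Set ℂ} (hU : IsOpen U) {p : ℕ} (hp : p ≠ 0) {f g : ℂ → ℂ}
    (hg : MeromorphicOn g U) (h : ∀ z ∈ U, g z ^ p = f z) {z : ℂ} (hz : z ∈ U)
    (hf : meromorphicOrderAt f z ≠ ⊤) : meromorphicOrderAt g z ≠ ⊤ := by
  intro htop
  apply hf
  rw [← order_of_pow_eq hU hg h hz, htop]
  exact WithTop.mul_top (by exact_mod_cast hp)


/-- a continuous function with values in the `p`-th roots of unity is locally constant -/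
theorem eventually_eq_of_pow_eq_one {p : ℕ} (hp : p ≠ 0) {q : ℂ → ℂ} {z : ℂ}
    (hq : ContinuousAt q z) (h : ∀ᶠ y in 𝓝 z, q y ^ p = 1) : ∀ᶠ y in 𝓝 z, q y = q z := by
  have hfin : {ζ : ℂ | ζ ^ p = 1}.Finite := by
    have : {ζ : ℂ | ζ ^ p = 1} ⊆ ((Polynomial.nthRootsFinset p (1 : ℂ) : Finset ℂ) : Set ℂ) := by
      intro ζ hζ
      simp only [Finset.mem_coe]
      rw [Polynomial.mem_nthRootsFinset (Nat.pos_of_ne_zero hp)]
      exact hζ
    exact (Finset.finite_toSet _).subset this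
  have hcl : IsClosed ({ζ : ℂ | ζ ^ p = 1} \ {q z}) := (hfin.subset sdiff_subset).isClosed
  have hmem : ({ζ : ℂ | ζ ^ p = 1} \ {q z})ᶜ ∈ 𝓝 (q z) :=
    hcl.isOpen_compl.mem_nhds (by simp)
  filter_upwards [hq.preimage_mem_nhds hmem, h] with y hy hy1
  by_contra hne
  exact hy ⟨hy1, hne⟩

/-- **Uniqueness of `p`-th roots** up to a `p`-th root of unity, on a preconnected open set. -/
theorem root_unique_on {U : Set ℂ} (hU : IsOpen U) (hUc : IsPreconnected U) {p : ℕ} (hp : p ≠ 0)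
    {g₁ g₂ : ℂ → ℂ} (h₁ : MeromorphicNFOn g₁ U) (h₂ : MeromorphicNFOn g₂ U)
    (hne : ∃ z ∈ U, meromorphicOrderAt g₁ z ≠ ⊤)
    (h : ∀ z ∈ U, g₂ z ^ p = g₁ z ^ p) :
    ∃ ζ : ℂ, ζ ^ p = 1 ∧ ∀ z ∈ U, g₂ z = ζ * g₁ z := by
  obtain ⟨z₀, hz₀, hz₀'⟩ := hne
  -- a point where `g₁` does not vanish
  obtain ⟨z₁, hz₁, hz₁'⟩ : ∃ z₁ ∈ U, g₁ z₁ ≠ 0 := by
    have h3 := (meromorphicOrderAt_ne_top_iff_eventually_ne_zero (h₁ hz₀).meromorphicAt).1 hz₀'
    have h4 : U ∈ 𝓝[≠] z₀ := mem_nhdsWithin_of_mem_nhds (hU.mem_nhds hz₀)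
    obtain ⟨y, hy1, hy2⟩ := (h3.and h4).exists
    exact ⟨y, hy2, hy1⟩
  have hg2ne : g₂ z₁ ≠ 0 := by
    intro h0
    have := h z₁ hz₁
    rw [h0, zero_pow hp] at this
    exact hz₁' (pow_eq_zero_iff hp |>.1 this.symm)
  have ha1 : AnalyticAt ℂ g₁ z₁ := by
    apply (h₁ hz₁).meromorphicOrderAt_nonneg_iff_analyticAt.1
    rw [((h₁ hz₁).meromorphicOrderAt_eq_zero_iff).2 hz₁']
  have ha2 : AnalyticAt ℂ g₂ z₁ := by
    apply (h₂ hz₁).meromorphicOrderAt_nonneg_iff_analyticAt.1
    rw [((h₂ hz₁).meromorphicOrderAt_eq_zero_iff).2 hg2ne]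
  set ζ : ℂ := g₂ z₁ / g₁ z₁ with hζ
  have hζp : ζ ^ p = 1 := by
    rw [hζ, div_pow, h z₁ hz₁, div_self (pow_ne_zero p hz₁')]
  have hζ0 : ζ ≠ 0 := by
    intro h0
    rw [h0, zero_pow hp] at hζp
    exact zero_ne_one hζp
  -- locally near `z₁`
  have hloc : ∀ᶠ y in 𝓝 z₁, g₂ y = ζ * g₁ y := by
    have hq : ContinuousAt (fun y => g₂ y / g₁ y) z₁ :=
      ha2.continuousAt.div ha1.continuousAt hz₁'
    have hne1 : ∀ᶠ y in 𝓝 z₁, g₁ y ≠ 0 := ha1.continuousAt.eventually_ne hz₁'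
    have hq1 : ∀ᶠ y in 𝓝 z₁, (g₂ y / g₁ y) ^ p = 1 := by
      filter_upwards [hne1, hU.mem_nhds hz₁] with y hy hyU
      rw [div_pow, h y hyU, div_self (pow_ne_zero p hy)]
    filter_upwards [eventually_eq_of_pow_eq_one hp hq hq1, hne1] with y hy hy1
    rw [hζ, ← hy, div_mul_cancel₀ _ hy1]
  -- the difference has infinite order everywhere
  have hD : MeromorphicOn (fun y => g₂ y - ζ * g₁ y) U := fun y hy =>
    (h₂ hy).meromorphicAt.sub ((MeromorphicAt.const ζ y).mul (h₁ hy).meromorphicAt)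
  have htop1 : meromorphicOrderAt (fun y => g₂ y - ζ * g₁ y) z₁ = ⊤ := by
    rw [meromorphicOrderAt_eq_top_iff]
    have := hloc.filter_mono (nhdsWithin_le_nhds (s := {z₁}ᶜ))
    filter_upwards [this] with y hy
    rw [hy, sub_self]
  refine ⟨ζ, hζp, fun z hz => ?_⟩
  have htop : meromorphicOrderAt (fun y => g₂ y - ζ * g₁ y) z = ⊤ := by
    by_contra hcon
    exact (hD.meromorphicOrderAt_ne_top_of_isPreconnected hUc hz hz₁ hcon) htop1
  rw [meromorphicOrderAt_eq_top_iff] at htop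
  have hNF : MeromorphicNFAt (fun y => ζ * g₁ y) z := by
    have := (h₁ hz).smul_analytic (g := fun _ => ζ) analyticAt_const hζ0
    exact this
  have heq : g₂ =ᶠ[𝓝[≠] z] (fun y => ζ * g₁ y) := by
    filter_upwards [htop] with y hy
    exact sub_eq_zero.1 hy
  exact (((h₂ hz).eventuallyEq_nhdsNE_iff_eventuallyEq_nhds hNF).1 heq).eq_of_nhds


/-- **Logarithm on a disc**: an analytic function without zeros on a disc is the exponential
of an analytic function. -/
theorem exists_log_ball {c : ℂ} {R : ℝ} {g : ℂ → ℂ} (hg : AnalyticOnNhd ℂ g (ball c R))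
    (hne : ∀ z ∈ ball c R, g z ≠ 0) :
    ∃ h : ℂ → ℂ, AnalyticOnNhd ℂ h (ball c R) ∧ ∀ z ∈ ball c R, g z = Complex.exp (h z) := by
  have hF : DifferentiableOn ℂ (fun z => deriv g z / g z) (ball c R) :=
    (hg.deriv.differentiableOn).div hg.differentiableOn hne
  obtain ⟨H, hHc, hH⟩ := hF.isExactOn_ball.with_val_at c (Complex.log (g c))
  have hHd : DifferentiableOn ℂ H (ball c R) := fun z hz =>
    (hH z hz).differentiableAt.differentiableWithinAt
  refine ⟨H, hHd.analyticOnNhd isOpen_ball, fun z hz => ?_⟩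
  -- `φ = g * exp (-H)` has zero derivative
  have hφ : ∀ x ∈ ball c R, HasDerivAt (fun y => g y * Complex.exp (-H y)) 0 x := by
    intro x hx
    have h1 : HasDerivAt g (deriv g x) x := (hg x hx).differentiableAt.hasDerivAt
    have h2 : HasDerivAt (fun y => Complex.exp (-H y))
        (Complex.exp (-H x) * (-(deriv g x / g x))) x := (hH x hx).neg.cexp
    have h3 := h1.mul h2
    convert! h3 using 1
    have := hne x hx
    field_simp
    ring
  have hφd : DifferentiableOn ℂ (fun y => g y * Complex.exp (-H y)) (ball c R) := fun x hx =>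
    (hφ x hx).differentiableAt.differentiableWithinAt
  have hφ' : (ball c R).EqOn (deriv (fun y => g y * Complex.exp (-H y))) 0 := fun x hx =>
    (hφ x hx).deriv
  have hc : c ∈ ball c R := by
    have : (ball c R).Nonempty := ⟨z, hz⟩
    rw [nonempty_ball] at this
    exact mem_ball_self this
  have hconst := isOpen_ball.is_const_of_deriv_eq_zero (convex_ball c R).isPreconnected hφd hφ'
    hz hc
  beta_reduce at hconst
  rw [hHc, Complex.exp_neg, Complex.exp_neg, Complex.exp_log (hne c hc),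
    mul_inv_cancel₀ (hne c hc)] at hconst
  have hexp : Complex.exp (H z) ≠ 0 := Complex.exp_ne_zero _
  field_simp at hconst
  exact hconst


/-- **Local root**: on a disc whose closure lies in the domain of meromorphy. -/
theorem exists_root_ball {p : ℕ} (hp : p ≠ 0) {c : ℂ} {R : ℝ} {f : ℂ → ℂ}
    (hf : MeromorphicOn f (closedBall c R))
    (hfin : ∀ z ∈ ball c R, meromorphicOrderAt f z ≠ ⊤)
    (hdiv : ∀ z ∈ ball c R, ∃ m : ℤ, meromorphicOrderAt f z = (((p : ℤ) * m : ℤ) : WithTop ℤ)) :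
    ∃ r : ℂ → ℂ, MeromorphicNFOn r (ball c R) ∧
      (fun z => r z ^ p) =ᶠ[codiscreteWithin (ball c R)] f := by
  have hfB : MeromorphicOn f (ball c R) := fun z hz => hf z (ball_subset_closedBall hz)
  have hsupp : (MeromorphicOn.divisor f (ball c R)).support.Finite :=
    MeromorphicOn.divisor_ball_support_finite hf
  obtain ⟨g, hg, hgne, hfg⟩ := hfB.extract_zeros_poles (fun u => hfin u u.2) hsupp
  obtain ⟨h, hh, hexp⟩ := exists_log_ball hg (fun z hz => hgne ⟨z, hz⟩)
  set d : ℂ → ℤ := fun u => MeromorphicOn.divisor f (ball c R) u with hd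
  set e : ℂ → ℤ := fun u => d u / (p : ℤ) with he
  have hp' : (p : ℤ) ≠ 0 := by exact_mod_cast hp
  have hde : ∀ u, d u = e u * (p : ℤ) := by
    intro u
    by_cases hu : u ∈ ball c R
    · obtain ⟨m, hm⟩ := hdiv u hu
      have h1 : d u = (p : ℤ) * m := by
        simp only [hd]
        rw [MeromorphicOn.divisor_apply hfB hu, hm, WithTop.untop₀_coe]
      simp only [he]
      rw [h1, Int.mul_ediv_cancel_left _ hp', mul_comm]
    · have h1 : d u = 0 := by
        simp only [hd]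
        exact Function.locallyFinsuppWithin.apply_eq_zero_of_notMem _ hu
      simp only [he]
      rw [h1]
      simp
  have hfinE : (fun u => ((· - u) ^ e u : ℂ → ℂ)).HasFiniteMulSupport := by
    rw [Function.HasFiniteMulSupport, Function.FactorizedRational.mulSupport]
    apply hsupp.subset
    intro u hu
    rw [Function.mem_support] at hu ⊢
    intro h0
    apply hu
    have := hde u
    simp only [hd] at this
    simp only [he, hd]
    rw [h0]
    simp
  have hAn : AnalyticOnNhd ℂ (fun z => Complex.exp (h z / (p : ℂ))) (ball c R) := by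
    intro z hz
    have := hh z hz
    fun_prop
  have hNe : ∀ z ∈ ball c R, (fun z => Complex.exp (h z / (p : ℂ))) z ≠ 0 := fun z _ =>
    Complex.exp_ne_zero _
  refine ⟨(∏ᶠ u, (· - u) ^ e u) * (fun z => Complex.exp (h z / (p : ℂ))),
    (meromorphicNFOn_mul_iff_left_of_analyticOnNhd hAn hNe).2
      (Function.FactorizedRational.meromorphicNFOn e (ball c R)), ?_⟩
  have hpow : (∏ᶠ u, ((· - u) ^ e u : ℂ → ℂ)) ^ p = ∏ᶠ u, ((· - u) ^ d u : ℂ → ℂ) := by
    rw [finprod_pow hfinE]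
    congr 1
    funext u
    funext x
    simp only [Pi.pow_apply]
    rw [hde u, zpow_mul, zpow_natCast]
  filter_upwards [hfg, self_mem_codiscreteWithin (ball c R)] with z hz hzB
  rw [hz]
  simp only [Pi.mul_apply, Pi.smul_apply', smul_eq_mul]
  rw [mul_pow, ← Complex.exp_nat_mul, mul_div_cancel₀ _ (by exact_mod_cast hp : (p : ℂ) ≠ 0),
    ← hexp z hzB]
  congr 1
  have := congrFun hpow z
  simpa using this


theorem meromorphicNFOn_pow {U : Set ℂ} {r : ℂ → ℂ} (hr : MeromorphicNFOn r U) (p : ℕ) :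
    MeromorphicNFOn (fun z => r z ^ p) U := by
  have := hr.zpow (n := (p : ℤ))
  have h2 : r ^ (p : ℤ) = fun z => r z ^ p := by
    funext z
    simp
  rwa [h2] at this

/-- **Gluing of local roots** along an exhaustion by discs. -/
theorem exists_root_of_exhaustion {U : Set ℂ} (c : ℕ → ℂ) (ρ : ℕ → ℝ)
    (hsub : ∀ n, closedBall (c n) (ρ n) ⊆ U)
    (hmono : ∀ n, ball (c n) (ρ n) ⊆ ball (c (n + 1)) (ρ (n + 1)))
    (hcov : U ⊆ ⋃ n, ball (c n) (ρ n))
    {p : ℕ} (hp : p ≠ 0) {f : ℂ → ℂ} (hf : MeromorphicNFOn f U)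
    (hfin : ∀ z ∈ U, meromorphicOrderAt f z ≠ ⊤)
    (hdiv : ∀ z ∈ U, ∃ m : ℤ, meromorphicOrderAt f z = (((p : ℤ) * m : ℤ) : WithTop ℤ)) :
    ∃ g : ℂ → ℂ, MeromorphicNFOn g U ∧ ∀ z ∈ U, g z ^ p = f z := by
  have hBU : ∀ n, ball (c n) (ρ n) ⊆ U := fun n => ball_subset_closedBall.trans (hsub n)
  have hloc : ∀ n, ∃ r : ℂ → ℂ, MeromorphicNFOn r (ball (c n) (ρ n)) ∧
      ∀ z ∈ ball (c n) (ρ n), r z ^ p = f z := by
    intro n
    obtain ⟨r, hr, hrf⟩ := exists_root_ball hp (c := c n) (R := ρ n)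
      (fun z hz => (hf (hsub n hz)).meromorphicAt)
      (fun z hz => hfin z (hBU n hz)) (fun z hz => hdiv z (hBU n hz))
    exact ⟨r, hr, fun z hz => eqOn_of_codiscreteWithin isOpen_ball (meromorphicNFOn_pow hr p)
      (fun y hy => hf (hBU n hy)) hrf hz⟩
  choose r hrNF hrpow using hloc
  have hstep : ∀ n, ∃ ζ : ℂ, ζ ^ p = 1 ∧ ∀ z ∈ ball (c n) (ρ n), r (n + 1) z = ζ * r n z := by
    intro n
    by_cases hne : (ball (c n) (ρ n)).Nonempty
    · obtain ⟨z₀, hz₀⟩ := hne
      exact root_unique_on isOpen_ball (convex_ball _ _).isPreconnected hp (hrNF n)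
        (fun y hy => hrNF (n + 1) (hmono n hy))
        ⟨z₀, hz₀, order_ne_top_of_pow_eq isOpen_ball hp (hrNF n).meromorphicOn (hrpow n) hz₀
          (hfin z₀ (hBU n hz₀))⟩
        (fun z hz => (hrpow (n + 1) z (hmono n hz)).trans (hrpow n z hz).symm)
    · exact ⟨1, one_pow p, fun z hz => absurd ⟨z, hz⟩ hne⟩
  choose ζ hζ1 hζ2 using hstep
  have hζ0 : ∀ n, ζ n ≠ 0 := by
    intro n h0
    have := hζ1 n
    rw [h0, zero_pow hp] at this
    exact zero_ne_one this
  set s : ℕ → ℂ := fun n => ∏ k ∈ Finset.range n, ζ k with hs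
  have hs0 : ∀ n, s n ≠ 0 := fun n => Finset.prod_ne_zero_iff.2 (fun k _ => hζ0 k)
  have hsp : ∀ n, s n ^ p = 1 := by
    intro n
    simp only [hs]
    rw [← Finset.prod_pow]
    exact Finset.prod_eq_one (fun k _ => hζ1 k)
  have hGsucc : ∀ n, ∀ z ∈ ball (c n) (ρ n),
      (s (n + 1))⁻¹ * r (n + 1) z = (s n)⁻¹ * r n z := by
    intro n z hz
    have h1 : s (n + 1) = s n * ζ n := by
      simp only [hs]
      rw [Finset.prod_range_succ]
    rw [h1, hζ2 n z hz]
    have := hs0 n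
    have := hζ0 n
    field_simp
  have hBmono : Monotone (fun n => ball (c n) (ρ n)) := monotone_nat_of_le_succ hmono
  have hGmono : ∀ m n, m ≤ n → ∀ z ∈ ball (c m) (ρ m),
      (s n)⁻¹ * r n z = (s m)⁻¹ * r m z := by
    intro m n hmn
    induction n, hmn using Nat.le_induction with
    | base => intro z _; rfl
    | succ n hmn ih =>
      intro z hz
      rw [hGsucc n z (hBmono hmn hz), ih z hz]
  classical
  set N : ℂ → ℕ := fun z => if h : ∃ n, z ∈ ball (c n) (ρ n) then Nat.find h else 0 with hN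
  set g : ℂ → ℂ := fun z => (s (N z))⁻¹ * r (N z) z with hg
  have hgeq : ∀ n, ∀ z ∈ ball (c n) (ρ n), g z = (s n)⁻¹ * r n z := by
    intro n z hz
    have hex : ∃ n, z ∈ ball (c n) (ρ n) := ⟨n, hz⟩
    have hNz : N z = Nat.find hex := by simp only [hN]; rw [dif_pos hex]
    have h1 : N z ≤ n := by rw [hNz]; exact Nat.find_min' hex hz
    have h2 : z ∈ ball (c (N z)) (ρ (N z)) := by rw [hNz]; exact Nat.find_spec hex
    simp only [hg]
    exact (hGmono (N z) n h1 z h2).symm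
  refine ⟨g, fun z hz => ?_, fun z hz => ?_⟩
  · obtain ⟨n, hn⟩ := mem_iUnion.1 (hcov hz)
    have heq : g =ᶠ[𝓝 z] (fun y => (s n)⁻¹ * r n y) := by
      filter_upwards [isOpen_ball.mem_nhds hn] with y hy using hgeq n y hy
    rw [meromorphicNFAt_congr heq]
    exact (hrNF n hn).smul_analytic (g := fun _ => (s n)⁻¹) analyticAt_const
      (inv_ne_zero (hs0 n))
  · obtain ⟨n, hn⟩ := mem_iUnion.1 (hcov hz)
    rw [hgeq n z hn, mul_pow, inv_pow, hsp n, inv_one, one_mul, hrpow n z hn]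


/-- the upper half plane as a subset of `ℂ` -/
def UH : Set ℂ := {z | 0 < z.im}

theorem mem_UH {z : ℂ} : z ∈ UH ↔ 0 < z.im := Iff.rfl

theorem isOpen_UH : IsOpen UH := isOpen_lt continuous_const Complex.continuous_im

theorem convex_UH : Convex ℝ UH := convex_halfSpace_im_gt 0

theorem isPreconnected_UH : IsPreconnected UH := convex_UH.isPreconnected

theorem I_mem_UH : Complex.I ∈ UH := by simp [UH]

/-- centres of the exhausting discs -/
def exhC (n : ℕ) : ℂ := (((n : ℝ) + 2 : ℝ) : ℂ) * Complex.I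

/-- radii of the exhausting discs -/
def exhR (n : ℕ) : ℝ := ((n : ℝ) + 2) - 1 / ((n : ℝ) + 2)

theorem exh_closedBall_subset (n : ℕ) : closedBall (exhC n) (exhR n) ⊆ UH := by
  intro z hz
  rw [mem_closedBall, dist_eq_norm] at hz
  have h1 : |(z - exhC n).im| ≤ ‖z - exhC n‖ := Complex.abs_im_le_norm _
  have h2 : (z - exhC n).im = z.im - ((n : ℝ) + 2) := by
    simp [exhC]
  have h3 : (0 : ℝ) < (n : ℝ) + 2 := by positivity
  have h4 : (0 : ℝ) < 1 / ((n : ℝ) + 2) := by positivity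
  rw [h2] at h1
  have h5 := (abs_le.1 (h1.trans hz)).1
  simp only [exhR] at h5
  rw [mem_UH]
  linarith

theorem exh_ball_mono (n : ℕ) : ball (exhC n) (exhR n) ⊆ ball (exhC (n + 1)) (exhR (n + 1)) := by
  apply ball_subset_ball'
  have h1 : dist (exhC n) (exhC (n + 1)) = 1 := by
    rw [dist_eq_norm]
    have : exhC n - exhC (n + 1) = -Complex.I := by
      simp only [exhC]
      push_cast
      ring
    rw [this]
    simp
  rw [h1]
  simp only [exhR]
  push_cast
  have h3 : (0 : ℝ) < (n : ℝ) + 2 := by positivity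
  have h4 : 1 / ((n : ℝ) + 1 + 2) ≤ 1 / ((n : ℝ) + 2) := by
    apply one_div_le_one_div_of_le h3
    linarith
  linarith

theorem exh_cover : UH ⊆ ⋃ n, ball (exhC n) (exhR n) := by
  intro z hz
  rw [mem_UH] at hz
  obtain ⟨n, hn⟩ := exists_nat_gt ((z.re ^ 2 + z.im ^ 2 + 2) / (2 * z.im))
  rw [mem_iUnion]
  refine ⟨n, ?_⟩
  rw [mem_ball, dist_eq_norm]
  have hR : (2 : ℝ) ≤ (n : ℝ) + 2 := by
    have : (0 : ℝ) ≤ (n : ℝ) := Nat.cast_nonneg n
    linarith
  set R : ℝ := (n : ℝ) + 2 with hRdef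
  have hR0 : 0 < R := by linarith
  have h1 : z.re ^ 2 + z.im ^ 2 + 2 < 2 * z.im * R := by
    have h2 : (z.re ^ 2 + z.im ^ 2 + 2) / (2 * z.im) < R := by
      rw [hRdef]
      linarith
    rw [div_lt_iff₀ (by linarith)] at h2
    linarith
  have h3 : ‖z - exhC n‖ ^ 2 = z.re ^ 2 + (z.im - R) ^ 2 := by
    rw [Complex.sq_norm, Complex.normSq_apply]
    simp [exhC, hRdef]
    ring
  have h4 : exhR n = R - 1 / R := rfl
  have h5 : 0 ≤ R - 1 / R := by
    have : 1 / R ≤ 1 := by
      rw [div_le_one hR0]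
      linarith
    linarith
  rw [h4]
  rw [← pow_lt_pow_iff_left₀ (norm_nonneg _) h5 (two_ne_zero), h3]
  have h6 : (R - 1 / R) ^ 2 = R ^ 2 - 2 + 1 / R ^ 2 := by
    field_simp
    ring
  rw [h6]
  have h7 : 0 < 1 / R ^ 2 := by positivity
  nlinarith


/-- **Global `p`-th root on the upper half plane** (normal form version): a meromorphic function
on `UH` in normal form, nowhere locally zero, all of whose orders are divisible by `p`, is the
`p`-th power of a meromorphic function in normal form. -/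
theorem exists_root {p : ℕ} (hp : p ≠ 0) {f : ℂ → ℂ} (hf : MeromorphicNFOn f UH)
    (hfin : ∀ z ∈ UH, meromorphicOrderAt f z ≠ ⊤)
    (hdiv : ∀ z ∈ UH, ∃ m : ℤ, meromorphicOrderAt f z = (((p : ℤ) * m : ℤ) : WithTop ℤ)) :
    ∃ g : ℂ → ℂ, MeromorphicNFOn g UH ∧ (∀ z ∈ UH, g z ^ p = f z) ∧
      (∀ z ∈ UH, meromorphicOrderAt g z ≠ ⊤) ∧
      ∀ z ∈ UH, (p : WithTop ℤ) * meromorphicOrderAt g z = meromorphicOrderAt f z := by
  obtain ⟨g, hg, hgf⟩ := exists_root_of_exhaustion exhC exhR exh_closedBall_subset exh_ball_mono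
    exh_cover hp hf hfin hdiv
  exact ⟨g, hg, hgf, fun z hz => order_ne_top_of_pow_eq isOpen_UH hp hg.meromorphicOn hgf hz
    (hfin z hz), fun z hz => order_of_pow_eq isOpen_UH hg.meromorphicOn hgf hz⟩

/-- **Global `p`-th root on the upper half plane** for a function which is only meromorphic:
the identity `g ^ p = f` holds away from a discrete subset of `UH`. -/
theorem exists_root_of_meromorphicOn {p : ℕ} (hp : p ≠ 0) {f : ℂ → ℂ} (hf : MeromorphicOn f UH)
    (hfin : ∀ z ∈ UH, meromorphicOrderAt f z ≠ ⊤)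
    (hdiv : ∀ z ∈ UH, ∃ m : ℤ, meromorphicOrderAt f z = (((p : ℤ) * m : ℤ) : WithTop ℤ)) :
    ∃ g : ℂ → ℂ, MeromorphicNFOn g UH ∧ (fun z => g z ^ p) =ᶠ[codiscreteWithin UH] f ∧
      (∀ z ∈ UH, meromorphicOrderAt g z ≠ ⊤) ∧
      ∀ z ∈ UH, (p : WithTop ℤ) * meromorphicOrderAt g z = meromorphicOrderAt f z := by
  obtain ⟨g, hg, hgf, hgfin, hgord⟩ := exists_root hp (meromorphicNFOn_toMeromorphicNFOn f UH)
    (fun z hz => by rw [meromorphicOrderAt_toMeromorphicNFOn hf hz]; exact hfin z hz)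
    (fun z hz => by rw [meromorphicOrderAt_toMeromorphicNFOn hf hz]; exact hdiv z hz)
  refine ⟨g, hg, ?_, hgfin, fun z hz => ?_⟩
  · filter_upwards [toMeromorphicNFOn_eqOn_codiscrete hf, self_mem_codiscreteWithin UH]
      with z hz hzU
    rw [hgf z hzU, hz]
  · rw [hgord z hz, meromorphicOrderAt_toMeromorphicNFOn hf hz]

/-- **Uniqueness of `p`-th roots on the upper half plane**. -/
theorem root_unique {p : ℕ} (hp : p ≠ 0) {g₁ g₂ : ℂ → ℂ} (h₁ : MeromorphicNFOn g₁ UH)
    (h₂ : MeromorphicNFOn g₂ UH) (hne : ∃ z ∈ UH, meromorphicOrderAt g₁ z ≠ ⊤)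
    (h : ∀ z ∈ UH, g₂ z ^ p = g₁ z ^ p) :
    ∃ ζ : ℂ, ζ ^ p = 1 ∧ ∀ z ∈ UH, g₂ z = ζ * g₁ z :=
  root_unique_on isOpen_UH isPreconnected_UH hp h₁ h₂ hne h

/-- a meromorphic function in normal form on `UH` which is not locally zero has a point of
`UH` where it does not vanish -/
theorem exists_ne_zero {g : ℂ → ℂ} (hg : MeromorphicNFOn g UH)
    (hne : ∃ z ∈ UH, meromorphicOrderAt g z ≠ ⊤) : ∃ z ∈ UH, g z ≠ 0 := by
  obtain ⟨z₀, hz₀, hz₀'⟩ := hne
  have h3 := (meromorphicOrderAt_ne_top_iff_eventually_ne_zero (hg hz₀).meromorphicAt).1 hz₀'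
  have h4 : UH ∈ 𝓝[≠] z₀ := mem_nhdsWithin_of_mem_nhds (isOpen_UH.mem_nhds hz₀)
  obtain ⟨y, hy1, hy2⟩ := (h3.and h4).exists
  exact ⟨y, hy2, hy1⟩

end Fermat.Agent.S29.H85
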