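/-
S29 / S42, Program A, leaf (ROOT) of the design #1835 = (K1)/(K2) of #1843 (helper85), part 2:
THE CHARACTER OF A `p`-TH ROOT.

`moeb γ : ℂ → ℂ` is the Möbius transformation of `γ ∈ SL(2,ℤ)`; on the upper half plane it is the
Mathlib action (`coe_smul_eq_moeb`).  If `g` is meromorphic in normal form on `UH`, not locally
zero, and `g ^ p` is invariant under a subgroup `Γ ≤ SL(2,ℤ)`, then `g ∘ γ = χ(γ) g` for a
character `χ : Γ →* ℂˣ` with `χ ^ p = 1` (`exists_character`), which is unique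
(`character_unique`) and does not depend on the choice of the root (`character_eq_of_root`).
Two functions with the same character have a `Γ`-invariant quotient (`exists_invariant_quotient`),
and among infinitely many `Γ`-invariant functions all of whose orders are divisible by `p`, two
differ by the `p`-th power of a `Γ`-invariant meromorphic function (`exists_pair_pow`), as soon
as `Γ` has only finitely many characters of exponent `p`.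

Mathlib + `PthRoot` only.
-/
import Fermat.Agent.S29.H85.PthRoot

set_option autoImplicit false

noncomputable section

namespace Fermat.Agent.S29.H85

open Filter Topology Set Metric Function
open scoped MatrixGroups

/-- the Möbius transformation of `γ ∈ SL(2,ℤ)` as a function on `ℂ` -/
def moeb (γ : SL(2, ℤ)) (z : ℂ) : ℂ :=
  ((γ 0 0 : ℂ) * z + (γ 0 1 : ℂ)) / ((γ 1 0 : ℂ) * z + (γ 1 1 : ℂ))

theorem coe_smul_eq_moeb (γ : SL(2, ℤ)) (τ : UpperHalfPlane) :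
    ((γ • τ : UpperHalfPlane) : ℂ) = moeb γ (τ : ℂ) := by
  rw [UpperHalfPlane.coe_specialLinearGroup_apply]
  simp [moeb]

theorem moeb_mem_UH (γ : SL(2, ℤ)) {z : ℂ} (hz : z ∈ UH) : moeb γ z ∈ UH := by
  have := (γ • (⟨z, hz⟩ : UpperHalfPlane)).im_pos
  rw [UpperHalfPlane.im, coe_smul_eq_moeb] at this
  exact this

theorem moeb_denom_ne_zero (γ : SL(2, ℤ)) {z : ℂ} (hz : z ∈ UH) :
    (γ 1 0 : ℂ) * z + (γ 1 1 : ℂ) ≠ 0 := by
  have h := UpperHalfPlane.denom_ne_zero (γ : GL (Fin 2) ℝ) (⟨z, hz⟩ : UpperHalfPlane)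
  simpa [UpperHalfPlane.denom] using h

theorem moeb_one {z : ℂ} : moeb 1 z = z := by
  simp [moeb]

theorem moeb_mul (γ γ' : SL(2, ℤ)) {z : ℂ} (hz : z ∈ UH) :
    moeb (γ * γ') z = moeb γ (moeb γ' z) := by
  have h1 := coe_smul_eq_moeb (γ * γ') ⟨z, hz⟩
  have h2 := coe_smul_eq_moeb γ (γ' • ⟨z, hz⟩)
  have h3 := coe_smul_eq_moeb γ' ⟨z, hz⟩
  rw [mul_smul] at h1
  rw [h1] at h2
  rw [h2, h3]

theorem hasDerivAt_moeb (γ : SL(2, ℤ)) {z : ℂ} (hz : z ∈ UH) :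
    HasDerivAt (moeb γ) (1 / ((γ 1 0 : ℂ) * z + (γ 1 1 : ℂ)) ^ 2) z := by
  have hd := moeb_denom_ne_zero γ hz
  have h1 : HasDerivAt (fun y : ℂ => (γ 0 0 : ℂ) * y + (γ 0 1 : ℂ)) (γ 0 0 : ℂ) z := by
    simpa using ((hasDerivAt_id z).const_mul (γ 0 0 : ℂ)).add_const (γ 0 1 : ℂ)
  have h2 : HasDerivAt (fun y : ℂ => (γ 1 0 : ℂ) * y + (γ 1 1 : ℂ)) (γ 1 0 : ℂ) z := by
    simpa using ((hasDerivAt_id z).const_mul (γ 1 0 : ℂ)).add_const (γ 1 1 : ℂ)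
  have h3 := h1.div h2 hd
  have hdet : (γ 0 0 : ℂ) * (γ 1 1 : ℂ) - (γ 0 1 : ℂ) * (γ 1 0 : ℂ) = 1 := by
    have := Matrix.SpecialLinearGroup.det_coe γ
    rw [Matrix.det_fin_two] at this
    exact_mod_cast this
  have hval : (γ 0 0 : ℂ) * ((γ 1 0 : ℂ) * z + (γ 1 1 : ℂ)) -
      ((γ 0 0 : ℂ) * z + (γ 0 1 : ℂ)) * (γ 1 0 : ℂ) = 1 := by
    linear_combination hdet
  rw [hval] at h3
  exact h3

theorem analyticAt_moeb (γ : SL(2, ℤ)) {z : ℂ} (hz : z ∈ UH) : AnalyticAt ℂ (moeb γ) z := by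
  have hd := moeb_denom_ne_zero γ hz
  unfold moeb
  fun_prop (disch := exact hd)

theorem deriv_moeb_ne_zero (γ : SL(2, ℤ)) {z : ℂ} (hz : z ∈ UH) : deriv (moeb γ) z ≠ 0 := by
  rw [(hasDerivAt_moeb γ hz).deriv]
  exact one_div_ne_zero (pow_ne_zero 2 (moeb_denom_ne_zero γ hz))

theorem nf_comp_moeb {g : ℂ → ℂ} (hg : MeromorphicNFOn g UH) (γ : SL(2, ℤ)) :
    MeromorphicNFOn (g ∘ moeb γ) UH := fun _ hz =>
  (meromorphicNFAt_comp_iff_of_deriv_ne_zero (analyticAt_moeb γ hz) (deriv_moeb_ne_zero γ hz)).2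
    (hg (moeb_mem_UH γ hz))

theorem meromorphicOn_comp_moeb {g : ℂ → ℂ} (hg : MeromorphicOn g UH) (γ : SL(2, ℤ)) :
    MeromorphicOn (g ∘ moeb γ) UH := fun _ hz =>
  (meromorphicAt_comp_iff_of_deriv_ne_zero (analyticAt_moeb γ hz) (deriv_moeb_ne_zero γ hz)).2
    (hg _ (moeb_mem_UH γ hz))

theorem order_comp_moeb (g : ℂ → ℂ) (γ : SL(2, ℤ)) {z : ℂ} (hz : z ∈ UH) :
    meromorphicOrderAt (g ∘ moeb γ) z = meromorphicOrderAt g (moeb γ z) :=
  meromorphicOrderAt_comp_of_deriv_ne_zero (analyticAt_moeb γ hz) (deriv_moeb_ne_zero γ hz)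


/-- composing with a Möbius transformation preserves punctured neighbourhoods -/
theorem tendsto_moeb_nhdsNE (γ : SL(2, ℤ)) {z : ℂ} (hz : z ∈ UH) :
    Tendsto (moeb γ) (𝓝[≠] z) (𝓝[≠] (moeb γ z)) := by
  have han := analyticAt_moeb γ hz
  have hnc : ¬ EventuallyConst (moeb γ) (𝓝 z) := by
    intro hc
    have h1 : deriv (moeb γ) z = 0 := by
      obtain ⟨c, hc'⟩ := eventuallyConst_iff_exists_eventuallyEq.1 hc
      rw [hc'.deriv_eq]
      simp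
    exact deriv_moeb_ne_zero γ hz h1
  exact han.map_nhdsNE hnc

/-- **The character of a `p`-th root**: if `g ^ p = f` on the upper half plane and `f` is
invariant under `Γ`, then `g` transforms under `Γ` by a character of exponent `p`. -/
theorem exists_character {p : ℕ} (hp : p ≠ 0) (Γ : Subgroup SL(2, ℤ)) {f g : ℂ → ℂ}
    (hg : MeromorphicNFOn g UH) (hgfin : ∃ z ∈ UH, meromorphicOrderAt g z ≠ ⊤)
    (hgf : ∀ z ∈ UH, g z ^ p = f z)
    (hinv : ∀ γ ∈ Γ, ∀ z ∈ UH, f (moeb γ z) = f z) :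
    ∃ χ : Γ →* ℂˣ, (∀ γ, χ γ ^ p = 1) ∧
      ∀ (γ : Γ), ∀ z ∈ UH, g (moeb (γ : SL(2, ℤ)) z) = (χ γ : ℂ) * g z := by
  have key : ∀ γ : Γ, ∃ ζ : ℂ, ζ ^ p = 1 ∧ ∀ z ∈ UH, g (moeb (γ : SL(2, ℤ)) z) = ζ * g z := by
    intro γ
    exact root_unique hp hg (nf_comp_moeb hg (γ : SL(2, ℤ))) hgfin (fun z hz => by
      rw [hgf _ (moeb_mem_UH _ hz), hinv _ γ.2 z hz, hgf z hz])
  choose ζ hζ1 hζ2 using key
  obtain ⟨z₁, hz₁, hz₁'⟩ := exists_ne_zero hg hgfin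
  have hζ0 : ∀ γ, ζ γ ≠ 0 := by
    intro γ h0
    have := hζ1 γ
    rw [h0, zero_pow hp] at this
    exact zero_ne_one this
  have hmul : ∀ a b : Γ, ζ (a * b) = ζ a * ζ b := by
    intro a b
    have h1 := hζ2 (a * b) z₁ hz₁
    rw [Subgroup.coe_mul, moeb_mul _ _ hz₁, hζ2 a _ (moeb_mem_UH _ hz₁), hζ2 b z₁ hz₁,
      ← mul_assoc] at h1
    exact (mul_right_cancel₀ hz₁' h1).symm
  refine ⟨MonoidHom.mk' (fun γ => Units.mk0 (ζ γ) (hζ0 γ)) (fun a b => Units.ext (hmul a b)),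
    fun γ => Units.ext ?_, fun γ z hz => ?_⟩
  · simpa using hζ1 γ
  · simpa using hζ2 γ z hz

/-- the character of a function is unique -/
theorem character_unique (Γ : Subgroup SL(2, ℤ)) {g : ℂ → ℂ}
    (hg : MeromorphicNFOn g UH) (hgfin : ∃ z ∈ UH, meromorphicOrderAt g z ≠ ⊤)
    {χ χ' : Γ →* ℂˣ}
    (h : ∀ (γ : Γ), ∀ z ∈ UH, g (moeb (γ : SL(2, ℤ)) z) = (χ γ : ℂ) * g z)
    (h' : ∀ (γ : Γ), ∀ z ∈ UH, g (moeb (γ : SL(2, ℤ)) z) = (χ' γ : ℂ) * g z) : χ = χ' := by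
  obtain ⟨z₁, hz₁, hz₁'⟩ := exists_ne_zero hg hgfin
  ext γ
  have h1 := h γ z₁ hz₁
  rw [h' γ z₁ hz₁] at h1
  exact (mul_right_cancel₀ hz₁' h1).symm

/-- two `p`-th roots of the same function have the same character -/
theorem character_eq_of_root {p : ℕ} (hp : p ≠ 0) (Γ : Subgroup SL(2, ℤ)) {g g' : ℂ → ℂ}
    (hg : MeromorphicNFOn g UH) (hg' : MeromorphicNFOn g' UH)
    (hgfin : ∃ z ∈ UH, meromorphicOrderAt g z ≠ ⊤)
    (hpow : ∀ z ∈ UH, g' z ^ p = g z ^ p) {χ : Γ →* ℂˣ}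
    (h : ∀ (γ : Γ), ∀ z ∈ UH, g (moeb (γ : SL(2, ℤ)) z) = (χ γ : ℂ) * g z) :
    ∀ (γ : Γ), ∀ z ∈ UH, g' (moeb (γ : SL(2, ℤ)) z) = (χ γ : ℂ) * g' z := by
  obtain ⟨ζ, -, hζ⟩ := root_unique hp hg hg' hgfin hpow
  intro γ z hz
  rw [hζ _ (moeb_mem_UH _ hz), hζ z hz, h γ z hz]
  ring

/-- **Same character ⇒ invariant quotient**: if `g`, `g'` transform by the same character of
`Γ`, the normal form of `g / g'` is `Γ`-invariant. -/
theorem exists_invariant_quotient (Γ : Subgroup SL(2, ℤ)) {g g' : ℂ → ℂ}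
    (hg : MeromorphicNFOn g UH) (hg' : MeromorphicNFOn g' UH) {χ : Γ →* ℂˣ}
    (h : ∀ (γ : Γ), ∀ z ∈ UH, g (moeb (γ : SL(2, ℤ)) z) = (χ γ : ℂ) * g z)
    (h' : ∀ (γ : Γ), ∀ z ∈ UH, g' (moeb (γ : SL(2, ℤ)) z) = (χ γ : ℂ) * g' z) :
    ∃ Q : ℂ → ℂ, MeromorphicNFOn Q UH ∧
      Q =ᶠ[codiscreteWithin UH] (fun z => g z / g' z) ∧
      (∀ z ∈ UH, Q =ᶠ[𝓝[≠] z] (fun y => g y / g' y)) ∧
      ∀ γ ∈ Γ, ∀ z ∈ UH, Q (moeb γ z) = Q z := by
  have hq : MeromorphicOn (fun z => g z / g' z) UH := fun z hz =>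
    (hg hz).meromorphicAt.div (hg' hz).meromorphicAt
  refine ⟨toMeromorphicNFOn (fun z => g z / g' z) UH, meromorphicNFOn_toMeromorphicNFOn _ _,
    (toMeromorphicNFOn_eqOn_codiscrete hq).symm,
    fun z hz => hq.toMeromorphicNFOn_eq_self_on_nhdsNE hz, fun γ hγ z hz => ?_⟩
  set Q := toMeromorphicNFOn (fun z => g z / g' z) UH with hQ
  have hQNF : MeromorphicNFOn Q UH := meromorphicNFOn_toMeromorphicNFOn _ _
  have h1 : Q ∘ moeb γ =ᶠ[𝓝[≠] z] (fun y => g (moeb γ y) / g' (moeb γ y)) :=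
    (hq.toMeromorphicNFOn_eq_self_on_nhdsNE (moeb_mem_UH γ hz)).comp_tendsto
      (tendsto_moeb_nhdsNE γ hz)
  have h2 : (fun y => g (moeb γ y) / g' (moeb γ y)) =ᶠ[𝓝[≠] z] (fun y => g y / g' y) := by
    filter_upwards [mem_nhdsWithin_of_mem_nhds (isOpen_UH.mem_nhds hz)] with y hy
    have e1 := h ⟨γ, hγ⟩ y hy
    have e2 := h' ⟨γ, hγ⟩ y hy
    simp only at e1 e2
    rw [e1, e2, mul_div_mul_left _ _ (Units.ne_zero _)]
  have h3 : Q ∘ moeb γ =ᶠ[𝓝[≠] z] Q :=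
    (h1.trans h2).trans (hq.toMeromorphicNFOn_eq_self_on_nhdsNE hz).symm
  exact (((nf_comp_moeb hQNF γ hz).eventuallyEq_nhdsNE_iff_eventuallyEq_nhds (hQNF hz)).1
    h3).eq_of_nhds

/-- **Pigeonhole**: among infinitely many `Γ`-invariant meromorphic functions on the upper half
plane, all of whose orders are divisible by `p`, two differ by the `p`-th power of a
`Γ`-invariant meromorphic function — provided `Γ` has only finitely many characters of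
exponent `p` (true for `Γ₀(N)`: `Fermat.Agent.S42.H20.finite_unitChar_Gamma0`). -/
theorem exists_pair_pow {ι : Type*} [Infinite ι] {p : ℕ} (hp : p ≠ 0) (Γ : Subgroup SL(2, ℤ))
    (hΓ : {χ : Γ →* ℂˣ | ∀ γ, χ γ ^ p = 1}.Finite)
    (f : ι → ℂ → ℂ) (hf : ∀ i, MeromorphicNFOn (f i) UH)
    (hfin : ∀ i, ∀ z ∈ UH, meromorphicOrderAt (f i) z ≠ ⊤)
    (hdiv : ∀ i, ∀ z ∈ UH, ∃ m : ℤ,
      meromorphicOrderAt (f i) z = (((p : ℤ) * m : ℤ) : WithTop ℤ))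
    (hinv : ∀ i, ∀ γ ∈ Γ, ∀ z ∈ UH, f i (moeb γ z) = f i z) :
    ∃ i j, i ≠ j ∧ ∃ Q : ℂ → ℂ, MeromorphicNFOn Q UH ∧
      (∀ γ ∈ Γ, ∀ z ∈ UH, Q (moeb γ z) = Q z) ∧
      ∀ z ∈ UH, (fun y => Q y ^ p * f j y) =ᶠ[𝓝[≠] z] f i := by
  have hroot := fun i => exists_root hp (hf i) (hfin i) (hdiv i)
  choose g hgNF hgpow hgfin hgord using hroot
  have hchar := fun i => exists_character hp Γ (hgNF i) ⟨Complex.I, I_mem_UH, hgfin i _ I_mem_UH⟩
    (hgpow i) (hinv i)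
  choose χ hχ1 hχ2 using hchar
  -- pigeonhole
  obtain ⟨i, j, hij, hχij⟩ : ∃ i j, i ≠ j ∧ χ i = χ j := by
    by_contra hcon
    push Not at hcon
    have hinj : Function.Injective (fun i => (⟨χ i, hχ1 i⟩ : {χ : Γ →* ℂˣ | ∀ γ, χ γ ^ p = 1})) := by
      intro i j hij
      by_contra hne
      exact hcon i j hne (congrArg Subtype.val hij)
    have := hΓ.to_subtype
    exact not_injective_infinite_finite _ hinj
  obtain ⟨Q, hQNF, -, hQeq, hQinv⟩ := exists_invariant_quotient Γ (hgNF i) (hgNF j) (hχ2 i)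
    (by rw [hχij]; exact hχ2 j)
  refine ⟨i, j, hij, Q, hQNF, hQinv, fun z hz => ?_⟩
  have hj0 : ∀ᶠ y in 𝓝[≠] z, g j y ≠ 0 :=
    (meromorphicOrderAt_ne_top_iff_eventually_ne_zero (hgNF j hz).meromorphicAt).1
      (hgfin j z hz)
  filter_upwards [hQeq z hz, hj0, mem_nhdsWithin_of_mem_nhds (isOpen_UH.mem_nhds hz)]
    with y hy hy0 hyU
  rw [hy, ← hgpow j y hyU, ← hgpow i y hyU, div_pow, div_mul_cancel₀ _ (pow_ne_zero p hy0)]

end Fermat.Agent.S29.H85
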