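/-
S29 / S42, Program A (helper85): THE COLOURING OF (RIG) IN THE `FC N` VOCABULARY.

This file glues the landed leaves
* ROOT + character (`S29/H85/PthRoot`, `RootChar`),
* (AA') (`S29/H37/Kummer`, `FieldC`: `FC N = ℂ(j_d : d ∣ N)`, `evFC`, `ThetaC`),
* FINCHAR (`S42/H20/FinChar`).

`quotFun N A B` is the meromorphic function `Θ_ℂ(A) / Θ_ℂ(B)` on the upper half plane, as a
function on `ℂ`.  `AnDiv N p u` says that every analytic order on the upper half plane of the
function of `u ∈ FC N` is divisible by `p`.  `IsRootChar N p u χ` says that the function of `u`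
has a meromorphic `p`-th root transforming under `Γ₀(N)` by the character `χ`.

Main results:
* `exists_isRootChar`  : `u ≠ 0`, `AnDiv N p u`  ⟹  `u` has a root with a character of exponent `p`;
* `exists_pow_of_isRootChar` : same character ⟹ `u = u' * w ^ p` with `w ∈ FC N`;
* `exists_colouring`   : a colouring `c : FC N → X`, `X` finite, such that two nonzero elements
  satisfying `AnDiv` with the same colour differ by a `p`-th power (the hypothesis of (RIG));
* `exists_pair_pow_FC` : the pigeonhole form.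
-/
import Fermat.Agent.S29.H85.RootChar
import Fermat.Agent.S29.H37.FieldC
import Fermat.Agent.S42.H20.FinChar

set_option autoImplicit false

open UpperHalfPlane ModularCurve CongruenceSubgroup Filter Topology Set
open scoped MatrixGroups Manifold

noncomputable section

namespace Fermat.Agent.S29.H85

open Fermat.Agent.S29.H37

/-! ### Functions on `ℍ` as functions on `ℂ` -/

theorem ofComplex_moeb (γ : SL(2, ℤ)) {z : ℂ} (hz : z ∈ UH) :
    ofComplex (moeb γ z) = γ • ofComplex z := by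
  have h1 : ofComplex z = ⟨z, hz⟩ := ofComplex_apply_of_im_pos hz
  rw [h1]
  have h2 := coe_smul_eq_moeb γ ⟨z, hz⟩
  have h3 : moeb γ z = ((γ • (⟨z, hz⟩ : ℍ) : ℍ) : ℂ) := h2.symm
  rw [h3, ofComplex_apply]

theorem coe_ofComplex {z : ℂ} (hz : z ∈ UH) : ((ofComplex z : ℍ) : ℂ) = z := by
  rw [ofComplex_apply_of_im_pos hz]

theorem analyticOnNhd_comp_ofComplex {f : ℍ → ℂ} (hf : MDiff f) :
    AnalyticOnNhd ℂ (fun z => f (ofComplex z)) UH :=
  (UpperHalfPlane.mdifferentiable_iff.1 hf).analyticOnNhd isOpen_UH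

/-- a nonzero holomorphic function on `ℍ` is nonzero on a punctured neighbourhood of every
point -/
theorem eventually_ne_zero_of_mdiff {f : ℍ → ℂ} (hf : MDiff f) (hne : f ≠ 0) {z : ℂ}
    (hz : z ∈ UH) : ∀ᶠ y in 𝓝[≠] z, f (ofComplex y) ≠ 0 := by
  have han := analyticOnNhd_comp_ofComplex hf
  rcases (han z hz).eventually_eq_zero_or_eventually_ne_zero with h | h
  · exfalso
    have h0 := han.eqOn_zero_of_preconnected_of_eventuallyEq_zero isPreconnected_UH hz h
    apply hne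
    funext τ
    have := h0 (τ.im_pos : (τ : ℂ) ∈ UH)
    simpa [ofComplex_apply] using this
  · exact h

/-! ### The function of an element of `FC N` -/

/-- the meromorphic function `Θ_ℂ(A) / Θ_ℂ(B)` on the upper half plane, as a function on `ℂ` -/
def quotFun (N : ℕ) (A B : MvPolynomial (N.divisors) ℂ) : ℂ → ℂ :=
  fun z => ThetaC N A (ofComplex z) / ThetaC N B (ofComplex z)

theorem meromorphicOn_quotFun (N : ℕ) (A B : MvPolynomial (N.divisors) ℂ) :
    MeromorphicOn (quotFun N A B) UH := fun z hz =>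
  ((analyticOnNhd_comp_ofComplex (mdiff_ThetaC N A)) z hz).meromorphicAt.div
    ((analyticOnNhd_comp_ofComplex (mdiff_ThetaC N B)) z hz).meromorphicAt

theorem quotFun_moeb (N : ℕ) [NeZero N] (A B : MvPolynomial (N.divisors) ℂ) {γ : SL(2, ℤ)}
    (hγ : γ ∈ Gamma0 N) {z : ℂ} (hz : z ∈ UH) :
    quotFun N A B (moeb γ z) = quotFun N A B z := by
  unfold quotFun
  rw [ofComplex_moeb γ hz, ThetaC_smul_of_mem N hγ, ThetaC_smul_of_mem N hγ]

/-- two representations of the same element give the same function off a discrete set -/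
theorem quotFun_congr_rep (N : ℕ) [NeZero N] {u : FC N} {A B A' B' : MvPolynomial (N.divisors) ℂ}
    (hB : ThetaC N B ≠ 0) (hB' : ThetaC N B' ≠ 0)
    (h : u * evFC N B = evFC N A) (h' : u * evFC N B' = evFC N A') {z : ℂ} (hz : z ∈ UH) :
    quotFun N A B =ᶠ[𝓝[≠] z] quotFun N A' B' := by
  filter_upwards [eventually_ne_zero_of_mdiff (mdiff_ThetaC N B) hB hz,
    eventually_ne_zero_of_mdiff (mdiff_ThetaC N B') hB' hz] with y hy hy'
  unfold quotFun
  rw [div_eq_div_iff hy hy']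
  exact ThetaC_cross_of_rep N h h' (ofComplex y)

/-- normal form of an invariant function is invariant -/
theorem toNF_moeb_invariant {q : ℂ → ℂ} (hq : MeromorphicOn q UH) (γ : SL(2, ℤ))
    (h : ∀ z ∈ UH, q (moeb γ z) = q z) :
    ∀ z ∈ UH, toMeromorphicNFOn q UH (moeb γ z) = toMeromorphicNFOn q UH z := by
  intro z hz
  have hQNF : MeromorphicNFOn (toMeromorphicNFOn q UH) UH := meromorphicNFOn_toMeromorphicNFOn _ _
  have h1 : toMeromorphicNFOn q UH ∘ moeb γ =ᶠ[𝓝[≠] z] (fun y => q (moeb γ y)) :=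
    (hq.toMeromorphicNFOn_eq_self_on_nhdsNE (moeb_mem_UH γ hz)).comp_tendsto
      (tendsto_moeb_nhdsNE γ hz)
  have h2 : (fun y => q (moeb γ y)) =ᶠ[𝓝[≠] z] q := by
    filter_upwards [mem_nhdsWithin_of_mem_nhds (isOpen_UH.mem_nhds hz)] with y hy using h y hy
  have h3 : toMeromorphicNFOn q UH ∘ moeb γ =ᶠ[𝓝[≠] z] toMeromorphicNFOn q UH :=
    (h1.trans h2).trans (hq.toMeromorphicNFOn_eq_self_on_nhdsNE hz).symm
  exact (((nf_comp_moeb hQNF γ hz).eventuallyEq_nhdsNE_iff_eventuallyEq_nhds (hQNF hz)).1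
    h3).eq_of_nhds

/-- every analytic order on the upper half plane of the function of `u` is divisible by `p` -/
def AnDiv (N p : ℕ) (u : FC N) : Prop :=
  ∃ A B : MvPolynomial (N.divisors) ℂ, ThetaC N B ≠ 0 ∧ u * evFC N B = evFC N A ∧
    ∀ z ∈ UH, ∃ m : ℤ, meromorphicOrderAt (quotFun N A B) z = (((p : ℤ) * m : ℤ) : WithTop ℤ)

/-- `AnDiv` does not depend on the representation -/
theorem AnDiv.of_rep {N p : ℕ} [NeZero N] {u : FC N} (h : AnDiv N p u)
    {A B : MvPolynomial (N.divisors) ℂ} (hB : ThetaC N B ≠ 0) (hAB : u * evFC N B = evFC N A) :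
    ∀ z ∈ UH, ∃ m : ℤ, meromorphicOrderAt (quotFun N A B) z = (((p : ℤ) * m : ℤ) : WithTop ℤ) := by
  obtain ⟨A', B', hB', hAB', hdiv⟩ := h
  intro z hz
  rw [meromorphicOrderAt_congr (quotFun_congr_rep N hB hB' hAB hAB' hz)]
  exact hdiv z hz

/-- the function of `u` has a meromorphic `p`-th root transforming by the character `χ` -/
def IsRootChar (N p : ℕ) (u : FC N) (χ : Gamma0 N →* ℂˣ) : Prop :=
  ∃ (A B : MvPolynomial (N.divisors) ℂ) (g : ℂ → ℂ), ThetaC N B ≠ 0 ∧
    u * evFC N B = evFC N A ∧ MeromorphicNFOn g UH ∧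
    (∀ z ∈ UH, ∀ᶠ y in 𝓝[≠] z, g y ^ p = quotFun N A B y) ∧
    ∀ (γ : Gamma0 N), ∀ z ∈ UH, g (moeb (γ : SL(2, ℤ)) z) = (χ γ : ℂ) * g z

theorem ThetaC_ne_zero_of_rep {N : ℕ} [NeZero N] {u : FC N} (hu : u ≠ 0)
    {A B : MvPolynomial (N.divisors) ℂ} (hB : ThetaC N B ≠ 0) (hAB : u * evFC N B = evFC N A) :
    ThetaC N A ≠ 0 := by
  rw [ThetaC_ne_zero_iff, ← hAB]
  exact mul_ne_zero hu ((ThetaC_ne_zero_iff N B).1 hB)

theorem quotFun_order_ne_top {N : ℕ} {A B : MvPolynomial (N.divisors) ℂ}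
    (hA : ThetaC N A ≠ 0) (hB : ThetaC N B ≠ 0) {z : ℂ} (hz : z ∈ UH) :
    meromorphicOrderAt (quotFun N A B) z ≠ ⊤ := by
  rw [meromorphicOrderAt_ne_top_iff_eventually_ne_zero (meromorphicOn_quotFun N A B z hz)]
  filter_upwards [eventually_ne_zero_of_mdiff (mdiff_ThetaC N A) hA hz,
    eventually_ne_zero_of_mdiff (mdiff_ThetaC N B) hB hz] with y hy hy'
  exact div_ne_zero hy hy'

/-- **Existence of the root and its character.** -/
theorem exists_isRootChar {N : ℕ} [NeZero N] {p : ℕ} (hp : p ≠ 0) {u : FC N} (hu : u ≠ 0)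
    (h : AnDiv N p u) : ∃ χ : Gamma0 N →* ℂˣ, (∀ γ, χ γ ^ p = 1) ∧ IsRootChar N p u χ := by
  obtain ⟨A, B, hB, hAB, hdiv⟩ := h
  have hA := ThetaC_ne_zero_of_rep hu hB hAB
  have hq := meromorphicOn_quotFun N A B
  have hF : MeromorphicNFOn (toMeromorphicNFOn (quotFun N A B) UH) UH :=
    meromorphicNFOn_toMeromorphicNFOn _ _
  obtain ⟨g, hg, hgF, hgfin, -⟩ := exists_root hp hF
    (fun z hz => by
      rw [meromorphicOrderAt_toMeromorphicNFOn hq hz]; exact quotFun_order_ne_top hA hB hz)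
    (fun z hz => by rw [meromorphicOrderAt_toMeromorphicNFOn hq hz]; exact hdiv z hz)
  obtain ⟨χ, hχ1, hχ2⟩ := exists_character hp (Gamma0 N) hg
    ⟨Complex.I, I_mem_UH, hgfin _ I_mem_UH⟩ hgF
    (fun γ hγ => toNF_moeb_invariant hq γ (fun z hz => quotFun_moeb N A B hγ hz))
  refine ⟨χ, hχ1, A, B, g, hB, hAB, hg, fun z hz => ?_, hχ2⟩
  filter_upwards [hq.toMeromorphicNFOn_eq_self_on_nhdsNE hz,
    mem_nhdsWithin_of_mem_nhds (isOpen_UH.mem_nhds hz)] with y hy hyU
  rw [hgF y hyU, hy]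

/-- **Same character ⟹ `p`-th power**: two nonzero elements of `FC N` whose functions have
`p`-th roots with the same character differ by the `p`-th power of an element of `FC N`. -/
theorem exists_pow_of_isRootChar {N : ℕ} [NeZero N] {p : ℕ} (hp : p ≠ 0) {u u' : FC N}
    (hu : u ≠ 0) (hu' : u' ≠ 0) {χ : Gamma0 N →* ℂˣ}
    (h : IsRootChar N p u χ) (h' : IsRootChar N p u' χ) :
    ∃ w : FC N, w ≠ 0 ∧ u = u' * w ^ p := by
  obtain ⟨A, B, g, hB, hAB, hg, hgp, hgχ⟩ := h
  obtain ⟨A', B', g', hB', hAB', hg', hgp', hgχ'⟩ := h'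
  have hA := ThetaC_ne_zero_of_rep hu hB hAB
  have hA' := ThetaC_ne_zero_of_rep hu' hB' hAB'
  obtain ⟨Q, hQNF, -, hQeq, hQinv⟩ := exists_invariant_quotient (Gamma0 N) hg hg' hgχ hgχ'
  obtain ⟨k, rfl⟩ : ∃ k, p = k + 1 := ⟨p - 1, by omega⟩
  have hB0 : ThetaC N (B * A') ≠ 0 := ThetaC_mul_ne_zero N hB hA'
  -- the function `Q * Θ(B * A')`
  set q2 : ℂ → ℂ := fun z => Q z * ThetaC N (B * A') (ofComplex z) with hq2
  have hb0an := analyticOnNhd_comp_ofComplex (mdiff_ThetaC N (B * A'))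
  have hq2mer : MeromorphicOn q2 UH := fun z hz =>
    (hQNF hz).meromorphicAt.mul (hb0an z hz).meromorphicAt
  set M := toMeromorphicNFOn q2 UH with hM
  have hMNF : MeromorphicNFOn M UH := meromorphicNFOn_toMeromorphicNFOn _ _
  have hc0an := analyticOnNhd_comp_ofComplex (mdiff_ThetaC N (A * B' * (B * A') ^ k))
  -- `M ^ p = Θ(C0)` off a discrete set
  have hMpow : ∀ z ∈ UH, (fun y => M y ^ (k + 1)) =ᶠ[𝓝[≠] z]
      (fun y => ThetaC N (A * B' * (B * A') ^ k) (ofComplex y)) := by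
    intro z hz
    filter_upwards [hq2mer.toMeromorphicNFOn_eq_self_on_nhdsNE hz, hQeq z hz, hgp z hz,
      hgp' z hz, eventually_ne_zero_of_mdiff (mdiff_ThetaC N B) hB hz,
      eventually_ne_zero_of_mdiff (mdiff_ThetaC N A') hA' hz,
      eventually_ne_zero_of_mdiff (mdiff_ThetaC N B') hB' hz]
      with y hy1 hy2 hy3 hy4 hyB hyA' hyB'
    have e1 : M y = g y / g' y * (ThetaC N B (ofComplex y) * ThetaC N A' (ofComplex y)) := by
      rw [show M y = q2 y from hy1]
      simp only [hq2]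
      rw [hy2, map_mul]
      rfl
    have e2 : ThetaC N (A * B' * (B * A') ^ k) (ofComplex y) =
        ThetaC N A (ofComplex y) * ThetaC N B' (ofComplex y) *
          (ThetaC N B (ofComplex y) * ThetaC N A' (ofComplex y)) ^ k := by
      rw [map_mul, map_mul, map_pow, map_mul]
      rfl
    show M y ^ (k + 1) = ThetaC N (A * B' * (B * A') ^ k) (ofComplex y)
    rw [e1, e2, mul_pow, div_pow, hy3, hy4]
    unfold quotFun
    field_simp
    ring
  -- `M` is analytic on `UH`
  have hMan : ∀ z ∈ UH, AnalyticAt ℂ M z := by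
    intro z hz
    apply (hMNF hz).meromorphicOrderAt_nonneg_iff_analyticAt.1
    have h1 := meromorphicOrderAt_congr (hMpow z hz)
    have h2 : (0 : WithTop ℤ) ≤ meromorphicOrderAt
        (fun y => ThetaC N (A * B' * (B * A') ^ k) (ofComplex y)) z :=
      (hc0an z hz).meromorphicOrderAt_nonneg
    have h3 : meromorphicOrderAt (M ^ (k + 1)) z =
        ((k + 1 : ℕ) : WithTop ℤ) * meromorphicOrderAt M z :=
      meromorphicOrderAt_pow (hMNF hz).meromorphicAt
    have h4 : (M ^ (k + 1)) = fun y => M y ^ (k + 1) := rfl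
    rw [h4, h1] at h3
    rw [h3] at h2
    by_cases htop : meromorphicOrderAt M z = ⊤
    · rw [htop]
      exact le_top
    · lift meromorphicOrderAt M z to ℤ using htop with n hn
      have h5 : (0 : ℤ) ≤ ((k + 1 : ℕ) : ℤ) * n := by exact_mod_cast h2
      have h6 : (0 : ℤ) ≤ n := by
        by_contra hneg
        push Not at hneg
        have : (0 : ℤ) < ((k + 1 : ℕ) : ℤ) := by positivity
        nlinarith
      exact_mod_cast h6
  -- pointwise identity
  have hMpt : ∀ z ∈ UH, M z ^ (k + 1) = ThetaC N (A * B' * (B * A') ^ k) (ofComplex z) := by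
    intro z hz
    have hc1 : ContinuousAt (fun y => M y ^ (k + 1)) z := ((hMan z hz).continuousAt).pow _
    have hc2 : ContinuousAt (fun y => ThetaC N (A * B' * (B * A') ^ k) (ofComplex y)) z :=
      (hc0an z hz).continuousAt
    exact ((hc1.eventuallyEq_nhds_iff_eventuallyEq_nhdsNE hc2).1 (hMpow z hz)).eq_of_nhds
  -- the holomorphic function `V` on `ℍ`
  set V : ℍ → ℂ := fun τ => M (τ : ℂ) with hV
  have hVmd : MDiff V := by
    rw [UpperHalfPlane.mdifferentiable_iff]
    intro z hz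
    have h1 : DifferentiableWithinAt ℂ M {z | 0 < z.im} z :=
      (hMan z hz).differentiableAt.differentiableWithinAt
    refine h1.congr (fun y hy => ?_) ?_
    · simp only [Function.comp_apply, hV]
      rw [coe_ofComplex hy]
    · simp only [Function.comp_apply, hV]
      rw [coe_ofComplex hz]
  have hq2inv : ∀ γ ∈ Gamma0 N, ∀ z ∈ UH, q2 (moeb γ z) = q2 z := by
    intro γ hγ z hz
    simp only [hq2]
    rw [hQinv γ hγ z hz, ofComplex_moeb γ hz, ThetaC_smul_of_mem N hγ]
  have hVinv : ∀ γ ∈ Gamma0 N, ∀ τ : ℍ, V (γ • τ) = V τ := by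
    intro γ hγ τ
    simp only [hV]
    rw [coe_smul_eq_moeb]
    exact toNF_moeb_invariant hq2mer γ (hq2inv γ hγ) _ τ.im_pos
  have hVpow : ∀ τ : ℍ, V τ ^ (k + 1) = ThetaC N (A * B' * (B * A') ^ k) τ := by
    intro τ
    have := hMpt (τ : ℂ) τ.im_pos
    rwa [ofComplex_apply] at this
  obtain ⟨A1, B1, hB1, hAB1⟩ := exists_ThetaC_of_pow_eq N hVmd hVinv (Nat.succ_pos k) _ hVpow
  -- the identity in `FC N`
  have hE : evFC N (B * A' * A1 ^ (k + 1) - A * B' * B1 ^ (k + 1) * (B * A') ^ (k + 1)) = 0 := by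
    rw [← ThetaC_eq_zero_iff]
    funext τ
    have e3 := hVpow τ
    rw [map_mul, map_mul, map_pow, map_mul] at e3
    simp only [Pi.mul_apply, Pi.pow_apply] at e3
    rw [map_sub, map_mul, map_mul, map_mul, map_mul, map_mul, map_pow, map_pow, map_pow, map_mul]
    simp only [Pi.sub_apply, Pi.mul_apply, Pi.pow_apply, Pi.zero_apply]
    rw [← hAB1 τ, mul_pow, e3]
    ring
  have hb : evFC N B ≠ 0 := (ThetaC_ne_zero_iff N B).1 hB
  have hb' : evFC N B' ≠ 0 := (ThetaC_ne_zero_iff N B').1 hB'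
  have ha' : evFC N A' ≠ 0 := (ThetaC_ne_zero_iff N A').1 hA'
  have hb1 : evFC N B1 ≠ 0 := (ThetaC_ne_zero_iff N B1).1 hB1
  have hu_eq : u = evFC N A / evFC N B := by
    rw [eq_div_iff hb]
    exact hAB
  have hu'_eq : u' = evFC N A' / evFC N B' := by
    rw [eq_div_iff hb']
    exact hAB'
  have hmain : u = u' * (evFC N A1 / (evFC N B1 * evFC N (B * A'))) ^ (k + 1) := by
    rw [map_sub, sub_eq_zero, map_mul, map_mul, map_mul, map_mul, map_mul, map_pow, map_pow,
      map_pow, map_mul] at hE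
    have hden : evFC N B1 ^ (k + 1) * (evFC N B * evFC N A') ^ (k + 1) ≠ 0 :=
      mul_ne_zero (pow_ne_zero _ hb1) (pow_ne_zero _ (mul_ne_zero hb ha'))
    rw [hu_eq, hu'_eq, map_mul, div_pow, mul_pow, div_mul_div_comm,
      div_eq_div_iff hb (mul_ne_zero hb' hden)]
    linear_combination (-1 : FC N) * hE
  refine ⟨_, ?_, hmain⟩
  intro h0
  rw [h0, zero_pow (Nat.succ_ne_zero k), mul_zero] at hmain
  exact hu hmain

/-- **The colouring of (RIG)**: there is a map `c` from `FC N` to a finite set such that two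
nonzero elements, all of whose analytic orders on the upper half plane are divisible by `p`,
and which have the same colour, differ by a `p`-th power. -/
theorem exists_colouring (N : ℕ) [NeZero N] {p : ℕ} (hp : p ≠ 0) :
    ∃ (X : Type) (_ : Finite X) (c : FC N → X), ∀ u u' : FC N, u ≠ 0 → u' ≠ 0 →
      AnDiv N p u → AnDiv N p u' → c u = c u' → ∃ w : FC N, w ≠ 0 ∧ u = u' * w ^ p := by
  classical
  have hfin := Fermat.Agent.S42.H20.finite_unitChar_Gamma0 N p hp
  have hX : Finite {χ : Gamma0 N →* ℂˣ | ∀ γ, χ γ ^ p = 1} := hfin.to_subtype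
  refine ⟨{χ : Gamma0 N →* ℂˣ | ∀ γ, χ γ ^ p = 1}, hX,
    fun u => if h : ∃ χ : Gamma0 N →* ℂˣ, (∀ γ, χ γ ^ p = 1) ∧ IsRootChar N p u χ then
      ⟨h.choose, h.choose_spec.1⟩ else ⟨1, fun γ => by simp⟩, ?_⟩
  intro u u' hu hu' hdiv hdiv' hc
  have h := exists_isRootChar hp hu hdiv
  have h' := exists_isRootChar hp hu' hdiv'
  simp only [dif_pos h, dif_pos h'] at hc
  have hχ : h.choose = h'.choose := congrArg Subtype.val hc
  have h1 := h.choose_spec.2
  have h2 := h'.choose_spec.2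
  rw [hχ] at h1
  exact exists_pow_of_isRootChar hp hu hu' h1 h2

/-- **Pigeonhole form**: among infinitely many nonzero elements of `FC N`, all of whose analytic
orders on the upper half plane are divisible by `p`, two differ by a `p`-th power. -/
theorem exists_pair_pow_FC (N : ℕ) [NeZero N] {p : ℕ} (hp : p ≠ 0) {ι : Type*} [Infinite ι]
    (u : ι → FC N) (hu : ∀ i, u i ≠ 0) (hdiv : ∀ i, AnDiv N p (u i)) :
    ∃ i j, i ≠ j ∧ ∃ w : FC N, w ≠ 0 ∧ u i = u j * w ^ p := by
  obtain ⟨X, hX, c, hc⟩ := exists_colouring N hp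
  obtain ⟨i, j, hij, hcij⟩ := Finite.exists_ne_map_eq_of_infinite (fun i => c (u i))
  exact ⟨i, j, hij, hc _ _ (hu i) (hu j) (hdiv i) (hdiv j) hcij⟩

end Fermat.Agent.S29.H85
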