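/-
S29 / S42, Program A, leaf AJ-06 (helper85): `LeafAN1` of the skeleton `S42/H96/Skeleton`.

If `g ∈ M_ℂ` is nonzero and `p` divides the order of `g` at every place of `M_ℂ` over a finite
value of `j`, then the class of `g` modulo `p`-th powers has a polynomial representative `c`
whose function `Θ_ℂ(c)` has a holomorphic `p`-th root `G` transforming under `Γ₀(N)` by a
character `ζ_p ^ ψ`.

Inputs (all landed): helper37's `dvd_analyticOrder_of_dvd_ord` (orders on `ℍ` from orders at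
places), helper21's `exists_mdiff_root` (holomorphic `p`-th root on `ℍ`), and the character of
a root (`exists_character`, `S29/H85/RootChar`).
-/
import Fermat.Agent.S42.H96.Skeleton
import Fermat.Agent.S29.H37.PlacesC
import Fermat.Agent.S29.H21.RootUpper
import Fermat.Agent.S29.H85.RootChar

set_option autoImplicit false

open UpperHalfPlane ModularCurve CongruenceSubgroup Filter Topology Set AlgebraicCurve
open scoped MatrixGroups Manifold

noncomputable section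

namespace Fermat.Agent.S29.H85

open Fermat.Agent.S24

theorem ofComplex_moeb' (γ : SL(2, ℤ)) {z : ℂ} (hz : z ∈ UH) :
    ofComplex (moeb γ z) = γ • ofComplex z := by
  have h1 : ofComplex z = ⟨z, hz⟩ := ofComplex_apply_of_im_pos hz
  rw [h1]
  have h2 := coe_smul_eq_moeb γ ⟨z, hz⟩
  have h3 : moeb γ z = ((γ • (⟨z, hz⟩ : ℍ) : ℍ) : ℂ) := h2.symm
  rw [h3, ofComplex_apply]

/-- **From a character `χ : Γ →* ℂˣ` of exponent `p` to `ψ : Γ → ℤ/p`** with `χ = ζ_p ^ ψ`. -/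
theorem exists_hom_of_character {N p : ℕ} (hp : p ≠ 0) (χ : Gamma0 N →* ℂˣ)
    (hχ : ∀ γ, χ γ ^ p = 1) :
    ∃ ψ : Additive (Gamma0 N) →+ ZMod p, ∀ γ : Gamma0 N,
      Fermat.Agent.S42.H96.chiOf p ψ γ = (χ γ : ℂ) := by
  have hprim : IsPrimitiveRoot (Fermat.Agent.S42.H96.zetaP p) p := by
    unfold Fermat.Agent.S42.H96.zetaP
    exact Complex.isPrimitiveRoot_exp p hp
  have key : ∀ γ : Gamma0 N, ∃ i < p, Fermat.Agent.S42.H96.zetaP p ^ i = (χ γ : ℂ) := by
    intro γ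
    have : NeZero p := ⟨hp⟩
    have h2 : ((χ γ ^ p : ℂˣ) : ℂ) = 1 := by rw [hχ γ]; rfl
    have h3 : (χ γ : ℂ) ^ p = 1 := by simpa using h2
    exact hprim.eq_pow_of_pow_eq_one h3
  choose i hi1 hi2 using key
  have hfin : IsOfFinOrder (Fermat.Agent.S42.H96.zetaP p) :=
    isOfFinOrder_iff_pow_eq_one.2 ⟨p, Nat.pos_of_ne_zero hp, hprim.pow_eq_one⟩
  have hord : orderOf (Fermat.Agent.S42.H96.zetaP p) = p := hprim.eq_orderOf.symm
  have hadd : ∀ a b : Gamma0 N, ((i (a * b) : ℕ) : ZMod p) = (i a : ZMod p) + (i b : ZMod p) := by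
    intro a b
    have h1 : Fermat.Agent.S42.H96.zetaP p ^ i (a * b) =
        Fermat.Agent.S42.H96.zetaP p ^ (i a + i b) := by
      rw [pow_add, hi2, hi2, hi2, map_mul, Units.val_mul]
    rw [hfin.pow_eq_pow_iff_modEq, hord] at h1
    have h2 := (ZMod.natCast_eq_natCast_iff _ _ _).2 h1
    rw [h2]
    push_cast
    rfl
  refine ⟨AddMonoidHom.mk' (fun a => ((i (Additive.toMul a) : ℕ) : ZMod p))
    (fun a b => hadd (Additive.toMul a) (Additive.toMul b)), fun γ => ?_⟩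
  unfold Fermat.Agent.S42.H96.chiOf
  show Fermat.Agent.S42.H96.zetaP p ^ (((i γ : ℕ) : ZMod p)).val = (χ γ : ℂ)
  rw [ZMod.val_natCast_of_lt (hi1 γ), hi2]

/-- **Leaf AJ-06 (`LeafAN1`)**: if `p` divides the order of `g ≠ 0` at every place of `M_ℂ` over
a finite value of `j`, then the class of `g` modulo `p`-th powers has a holomorphic root datum
with some character. -/
theorem leafAN1 (N p : ℕ) [NeZero N] (hp : p ≠ 0) : Fermat.Agent.S42.H96.LeafAN1 N p := by
  intro g hg hP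
  obtain ⟨A, B, hB, hAB⟩ := Fermat.Agent.S29.H37.exists_rep N (g : Fermat.Agent.S29.H37.FC N)
  have hb : Fermat.Agent.S29.H37.evFC N B ≠ 0 := (Fermat.Agent.S29.H37.ThetaC_ne_zero_iff N B).1 hB
  have ha : Fermat.Agent.S29.H37.evFC N A ≠ 0 := by
    rw [← hAB]
    exact mul_ne_zero hg hb
  have hA : Fermat.Agent.S29.H37.ThetaC N A ≠ 0 :=
    (Fermat.Agent.S29.H37.ThetaC_ne_zero_iff N A).2 ha
  obtain ⟨k, rfl⟩ : ∃ k, p = k + 1 := ⟨p - 1, by omega⟩
  -- the order hypothesis in helper37's vocabulary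
  have hPC : ∀ v : Place ℂ (Fermat.Agent.S29.H37.FC N),
      Fermat.Agent.S29.H37.jC N ∈ v.toValuationSubring → (((k + 1 : ℕ) : ℤ)) ∣ v.ord g := by
    intro v hv
    apply hP v
    have e : Fermat.Agent.S42.H96.jC N (oneDiv N) = Fermat.Agent.S29.H37.jC N := by
      unfold Fermat.Agent.S29.H37.jC Fermat.Agent.S29.H37.evFC
      rw [MvPolynomial.aeval_X]
      rfl
    rw [e]
    exact hv
  -- the function `Θ(A) Θ(B)^k` and its orders
  have hAmd := Fermat.Agent.S29.H37.mdiff_ThetaC N A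
  have hBmd := Fermat.Agent.S29.H37.mdiff_ThetaC N B
  have hcmd := Fermat.Agent.S29.H37.mdiff_ThetaC N (A * B ^ k)
  have han : ∀ {f : ℍ → ℂ}, MDiff f → ∀ τ : ℍ, AnalyticAt ℂ (f ∘ ofComplex) (τ : ℂ) :=
    fun {f} hf τ => ((UpperHalfPlane.mdifferentiable_iff.1 hf).analyticOnNhd isOpen_UH) _ τ.im_pos
  have hc_ord : ∀ τ : ℍ, ∃ m : ℕ,
      analyticOrderAt (Fermat.Agent.S29.H37.ThetaC N (A * B ^ k) ∘ ofComplex) (τ : ℂ)
        = (((k + 1) * m : ℕ) : ℕ∞) := by
    intro τ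
    obtain ⟨n, m, hn, hm, d, hd⟩ :=
      Fermat.Agent.S29.H37.dvd_analyticOrder_of_dvd_ord N hPC ha hb hAB τ
    have e : Fermat.Agent.S29.H37.ThetaC N (A * B ^ k) ∘ ofComplex =
        (Fermat.Agent.S29.H37.ThetaC N A ∘ ofComplex) *
          (Fermat.Agent.S29.H37.ThetaC N B ∘ ofComplex) ^ k := by
      funext w
      simp [map_mul, map_pow]
    rw [e, analyticOrderAt_mul (han hAmd τ) ((han hBmd τ).pow k), analyticOrderAt_pow (han hBmd τ),
      hn, hm]
    have h1 : ((n + k * m : ℕ) : ℤ) = ((k + 1 : ℕ) : ℤ) * (d + m) := by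
      push_cast at hd ⊢
      linear_combination hd
    have h2 : (0 : ℤ) ≤ d + m := by
      by_contra hneg
      push Not at hneg
      have h3 : (0 : ℤ) ≤ ((n + k * m : ℕ) : ℤ) := Int.natCast_nonneg _
      have h4 : (0 : ℤ) < ((k + 1 : ℕ) : ℤ) := by positivity
      rw [h1] at h3
      nlinarith
    refine ⟨(d + m).toNat, ?_⟩
    have h5 : n + k * m = (k + 1) * (d + m).toNat := by
      have : ((n + k * m : ℕ) : ℤ) = (((k + 1) * (d + m).toNat : ℕ) : ℤ) := by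
        rw [h1]
        push_cast
        rw [Int.toNat_of_nonneg h2]
      exact_mod_cast this
    rw [← h5]
    push_cast
    rw [nsmul_eq_mul]
  -- the holomorphic root
  obtain ⟨G, hG, hGp⟩ := Fermat.Agent.S29.H21.exists_mdiff_root hcmd (Nat.succ_ne_zero k) hc_ord
  -- its character
  have hGan : AnalyticOnNhd ℂ (fun z => G (ofComplex z)) UH :=
    (UpperHalfPlane.mdifferentiable_iff.1 hG).analyticOnNhd isOpen_UH
  have hc0 : Fermat.Agent.S29.H37.ThetaC N (A * B ^ k) ≠ 0 := by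
    rw [Fermat.Agent.S29.H37.ThetaC_ne_zero_iff, map_mul, map_pow]
    exact mul_ne_zero ha (pow_ne_zero _ hb)
  obtain ⟨τ₀, hτ₀⟩ : ∃ τ₀ : ℍ, Fermat.Agent.S29.H37.ThetaC N (A * B ^ k) τ₀ ≠ 0 := by
    by_contra hcon
    push Not at hcon
    exact hc0 (funext hcon)
  have hGτ₀ : G τ₀ ≠ 0 := by
    intro h0
    apply hτ₀
    rw [← hGp τ₀, h0, zero_pow (Nat.succ_ne_zero k)]
  have hfin : ∃ z ∈ UH, meromorphicOrderAt (fun z => G (ofComplex z)) z ≠ ⊤ := by
    refine ⟨(τ₀ : ℂ), τ₀.im_pos, ?_⟩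
    have h0 : (fun z => G (ofComplex z)) (τ₀ : ℂ) ≠ 0 := by
      show G (ofComplex (τ₀ : ℂ)) ≠ 0
      rw [ofComplex_apply]
      exact hGτ₀
    rw [((hGan.meromorphicNFOn (τ₀.im_pos : (τ₀ : ℂ) ∈ UH)).meromorphicOrderAt_eq_zero_iff).2 h0]
    exact WithTop.zero_ne_top
  obtain ⟨χ, hχ1, hχ2⟩ := exists_character (Nat.succ_ne_zero k) (Gamma0 N)
    (f := fun z => Fermat.Agent.S29.H37.ThetaC N (A * B ^ k) (ofComplex z))
    hGan.meromorphicNFOn hfin (fun z _ => hGp (ofComplex z))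
    (fun γ hγ z hz => by
      show Fermat.Agent.S29.H37.ThetaC N (A * B ^ k) (ofComplex (moeb γ z)) = _
      rw [ofComplex_moeb' γ hz, Fermat.Agent.S29.H37.ThetaC_smul_of_mem N hγ])
  obtain ⟨ψ, hψ⟩ := exists_hom_of_character (Nat.succ_ne_zero k) χ hχ1
  refine ⟨ψ, A * B ^ k, B, G, hb, ?_, hG, hGp, fun γ τ => ?_⟩
  · -- `g * evC b ^ p = evC c`
    show g * Fermat.Agent.S29.H37.evFC N B ^ (k + 1) = Fermat.Agent.S29.H37.evFC N (A * B ^ k)
    rw [map_mul, map_pow, ← hAB]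
    ring
  · rw [hψ γ]
    have h1 : G (ofComplex (moeb (γ : SL(2, ℤ)) (τ : ℂ))) = (χ γ : ℂ) * G (ofComplex (τ : ℂ)) :=
      hχ2 γ (τ : ℂ) τ.im_pos
    rw [ofComplex_moeb' _ τ.im_pos, ofComplex_apply] at h1
    exact h1

end Fermat.Agent.S29.H85
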