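/-
S29 / S42, Program A (helper85): CALCULUS OF `IsRootChar` (the analytic Kummer map on `FC N`).

For `u ∈ FC N`, `IsRootChar N p u χ` says that the meromorphic function of `u` on the upper half
plane has a `p`-th root transforming under `Γ₀(N)` by the character `χ`.  This file shows that
`u ↦ χ` is a well-defined group homomorphism whose kernel consists of the `p`-th powers:

* `isRootChar_of_holo`  : a holomorphic `G` on `ℍ` with `G ^ p · Θ_ℂ(B) = Θ_ℂ(A)` and
  `G (γ τ) = χ(γ) G(τ)` gives `IsRootChar N p u χ`  (existence: the Eisenstein quotient);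
* `IsRootChar.anDiv`    : `IsRootChar N p u χ → AnDiv N p u`;
* `IsRootChar.unique`   : the character is unique;
* `IsRootChar.pow_eq_one` : it has exponent `p`;
* `IsRootChar.mul`, `IsRootChar.inv`, `isRootChar_pow`, `isRootChar_one` : homomorphism, trivial
  on `p`-th powers;
* `exists_pow_of_isRootChar_one` : trivial character ⟹ `p`-th power in `FC N`.
-/
import Fermat.Agent.S29.H85.Colouring

set_option autoImplicit false

open UpperHalfPlane ModularCurve CongruenceSubgroup Filter Topology Set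
open scoped MatrixGroups Manifold

noncomputable section

namespace Fermat.Agent.S29.H85

open Fermat.Agent.S29.H37

/-- normal form of a function transforming by a nonzero constant under `γ` transforms in the
same way -/
theorem toNF_moeb_smul {q : ℂ → ℂ} (hq : MeromorphicOn q UH) (γ : SL(2, ℤ)) {c : ℂ} (hc : c ≠ 0)
    (h : ∀ z ∈ UH, q (moeb γ z) = c * q z) :
    ∀ z ∈ UH, toMeromorphicNFOn q UH (moeb γ z) = c * toMeromorphicNFOn q UH z := by
  intro z hz
  have hQNF : MeromorphicNFOn (toMeromorphicNFOn q UH) UH := meromorphicNFOn_toMeromorphicNFOn _ _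
  have h1 : toMeromorphicNFOn q UH ∘ moeb γ =ᶠ[𝓝[≠] z] (fun y => q (moeb γ y)) :=
    (hq.toMeromorphicNFOn_eq_self_on_nhdsNE (moeb_mem_UH γ hz)).comp_tendsto
      (tendsto_moeb_nhdsNE γ hz)
  have h2 : (fun y => q (moeb γ y)) =ᶠ[𝓝[≠] z] (fun y => c * q y) := by
    filter_upwards [mem_nhdsWithin_of_mem_nhds (isOpen_UH.mem_nhds hz)] with y hy using h y hy
  have h3 : (fun y => c * q y) =ᶠ[𝓝[≠] z] (fun y => c * toMeromorphicNFOn q UH y) := by
    filter_upwards [hq.toMeromorphicNFOn_eq_self_on_nhdsNE hz] with y hy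
    rw [hy]
  have hNF : MeromorphicNFAt (fun y => c * toMeromorphicNFOn q UH y) z :=
    (hQNF hz).smul_analytic (g := fun _ => c) analyticAt_const hc
  exact (((nf_comp_moeb hQNF γ hz).eventuallyEq_nhdsNE_iff_eventuallyEq_nhds hNF).1
    ((h1.trans h2).trans h3)).eq_of_nhds

/-- **A meromorphic root gives `AnDiv`.** -/
theorem anDiv_of_root {N p : ℕ} [NeZero N] (hp : p ≠ 0) {u : FC N} (hu : u ≠ 0)
    {A B : MvPolynomial (N.divisors) ℂ} (hB : ThetaC N B ≠ 0) (hAB : u * evFC N B = evFC N A)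
    {W : ℂ → ℂ} (hW : MeromorphicOn W UH)
    (h : ∀ z ∈ UH, ∀ᶠ y in 𝓝[≠] z, W y ^ p = quotFun N A B y) : AnDiv N p u := by
  refine ⟨A, B, hB, hAB, fun z hz => ?_⟩
  have hA := ThetaC_ne_zero_of_rep hu hB hAB
  have h1 : meromorphicOrderAt (W ^ p) z = meromorphicOrderAt (quotFun N A B) z :=
    meromorphicOrderAt_congr (h z hz)
  rw [meromorphicOrderAt_pow (hW z hz)] at h1
  have h2 := quotFun_order_ne_top hA hB hz
  rw [← h1] at h2 ⊢
  have h3 : meromorphicOrderAt W z ≠ ⊤ := by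
    intro htop
    apply h2
    rw [htop]
    exact WithTop.mul_top (by exact_mod_cast hp)
  lift meromorphicOrderAt W z to ℤ using h3 with n hn
  exact ⟨n, by norm_cast⟩

/-- `IsRootChar` implies `AnDiv`. -/
theorem IsRootChar.anDiv {N p : ℕ} [NeZero N] (hp : p ≠ 0) {u : FC N} (hu : u ≠ 0)
    {χ : Gamma0 N →* ℂˣ} (h : IsRootChar N p u χ) : AnDiv N p u := by
  obtain ⟨A, B, g, hB, hAB, hg, hgp, -⟩ := h
  exact anDiv_of_root hp hu hB hAB hg.meromorphicOn hgp

/-- **Existence from a holomorphic root on `ℍ`**: if `G` is holomorphic on `ℍ`,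
`G ^ p · Θ_ℂ(B) = Θ_ℂ(A)` and `G (γ τ) = χ(γ) G(τ)` for `γ ∈ Γ₀(N)`, then the element
`u = A(j_d) / B(j_d)` of `FC N` has the character `χ`. -/
theorem isRootChar_of_holo {N p : ℕ} {u : FC N}
    {A B : MvPolynomial (N.divisors) ℂ} (hB : ThetaC N B ≠ 0) (hAB : u * evFC N B = evFC N A)
    {G : ℍ → ℂ} (hG : MDiff G) (hpow : ∀ τ : ℍ, G τ ^ p * ThetaC N B τ = ThetaC N A τ)
    {χ : Gamma0 N →* ℂˣ}
    (hχ : ∀ (γ : Gamma0 N) (τ : ℍ), G ((γ : SL(2, ℤ)) • τ) = (χ γ : ℂ) * G τ) :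
    IsRootChar N p u χ := by
  refine ⟨A, B, fun z => G (ofComplex z), hB, hAB,
    (analyticOnNhd_comp_ofComplex hG).meromorphicNFOn, fun z hz => ?_, fun γ z hz => ?_⟩
  · filter_upwards [eventually_ne_zero_of_mdiff (mdiff_ThetaC N B) hB hz] with y hy
    unfold quotFun
    rw [eq_div_iff hy]
    exact hpow _
  · show G (ofComplex (moeb (γ : SL(2, ℤ)) z)) = (χ γ : ℂ) * G (ofComplex z)
    rw [ofComplex_moeb _ hz, hχ]

/-- the root of an `IsRootChar` has finite orders and its `p`-th power is the normal form of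
the function -/
theorem IsRootChar.root_order_ne_top {N p : ℕ} [NeZero N] (hp : p ≠ 0) {u : FC N} (hu : u ≠ 0)
    {A B : MvPolynomial (N.divisors) ℂ} {g : ℂ → ℂ} (hB : ThetaC N B ≠ 0)
    (hAB : u * evFC N B = evFC N A) (hg : MeromorphicOn g UH)
    (hgp : ∀ z ∈ UH, ∀ᶠ y in 𝓝[≠] z, g y ^ p = quotFun N A B y) {z : ℂ} (hz : z ∈ UH) :
    meromorphicOrderAt g z ≠ ⊤ := by
  have hA := ThetaC_ne_zero_of_rep hu hB hAB
  have h1 : meromorphicOrderAt (g ^ p) z = meromorphicOrderAt (quotFun N A B) z :=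
    meromorphicOrderAt_congr (hgp z hz)
  rw [meromorphicOrderAt_pow (hg z hz)] at h1
  have h2 := quotFun_order_ne_top hA hB hz
  rw [← h1] at h2
  intro htop
  apply h2
  rw [htop]
  exact WithTop.mul_top (by exact_mod_cast hp)

/-- **Uniqueness of the character.** -/
theorem IsRootChar.unique {N p : ℕ} [NeZero N] (hp : p ≠ 0) {u : FC N} (hu : u ≠ 0)
    {χ χ' : Gamma0 N →* ℂˣ} (h : IsRootChar N p u χ) (h' : IsRootChar N p u χ') : χ = χ' := by
  obtain ⟨A, B, g, hB, hAB, hg, hgp, hgχ⟩ := h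
  obtain ⟨A', B', g', hB', hAB', hg', hgp', hgχ'⟩ := h'
  have hfin : ∀ z ∈ UH, meromorphicOrderAt g z ≠ ⊤ := fun z hz =>
    IsRootChar.root_order_ne_top hp hu hB hAB hg.meromorphicOn hgp hz
  have hfin' : ∀ z ∈ UH, meromorphicOrderAt g' z ≠ ⊤ := fun z hz =>
    IsRootChar.root_order_ne_top hp hu hB' hAB' hg'.meromorphicOn hgp' hz
  -- the two roots have the same `p`-th power
  have hpow : ∀ z ∈ UH, g' z ^ p = g z ^ p := by
    intro z hz
    have h1 : (fun y => g' y ^ p) =ᶠ[𝓝[≠] z] (fun y => g y ^ p) := by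
      filter_upwards [hgp z hz, hgp' z hz, quotFun_congr_rep N hB hB' hAB hAB' hz]
        with y hy hy' hq
      rw [hy, hy', hq]
    exact (((meromorphicNFOn_pow hg' p hz).eventuallyEq_nhdsNE_iff_eventuallyEq_nhds
      (meromorphicNFOn_pow hg p hz)).1 h1).eq_of_nhds
  have h2 := character_eq_of_root hp (Gamma0 N) hg hg' ⟨Complex.I, I_mem_UH, hfin _ I_mem_UH⟩
    hpow hgχ
  exact character_unique (Gamma0 N) hg' ⟨Complex.I, I_mem_UH, hfin' _ I_mem_UH⟩ h2 hgχ'

/-- the character of an `IsRootChar` has exponent `p` -/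
theorem IsRootChar.pow_eq_one {N p : ℕ} [NeZero N] (hp : p ≠ 0) {u : FC N} (hu : u ≠ 0)
    {χ : Gamma0 N →* ℂˣ} (h : IsRootChar N p u χ) (γ : Gamma0 N) : χ γ ^ p = 1 := by
  obtain ⟨χ', hχ', h'⟩ := exists_isRootChar hp hu (h.anDiv hp hu)
  rw [IsRootChar.unique hp hu h h']
  exact hχ' γ

theorem quotFun_mul (N : ℕ) (A B A' B' : MvPolynomial (N.divisors) ℂ) (z : ℂ) :
    quotFun N (A * A') (B * B') z = quotFun N A B z * quotFun N A' B' z := by
  unfold quotFun
  rw [map_mul, map_mul, Pi.mul_apply, Pi.mul_apply, mul_div_mul_comm]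

/-- **Multiplicativity.** -/
theorem IsRootChar.mul {N p : ℕ} {u u' : FC N} {χ χ' : Gamma0 N →* ℂˣ}
    (h : IsRootChar N p u χ) (h' : IsRootChar N p u' χ') : IsRootChar N p (u * u') (χ * χ') := by
  obtain ⟨A, B, g, hB, hAB, hg, hgp, hgχ⟩ := h
  obtain ⟨A', B', g', hB', hAB', hg', hgp', hgχ'⟩ := h'
  have hq : MeromorphicOn (fun z => g z * g' z) UH := fun z hz =>
    (hg hz).meromorphicAt.mul (hg' hz).meromorphicAt
  refine ⟨A * A', B * B', toMeromorphicNFOn (fun z => g z * g' z) UH,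
    ThetaC_mul_ne_zero N hB hB', ?_, meromorphicNFOn_toMeromorphicNFOn _ _, fun z hz => ?_,
    fun γ z hz => ?_⟩
  · rw [map_mul, map_mul, ← hAB, ← hAB']
    ring
  · filter_upwards [hq.toMeromorphicNFOn_eq_self_on_nhdsNE hz, hgp z hz, hgp' z hz]
      with y hy1 hy2 hy3
    rw [hy1, mul_pow, hy2, hy3, quotFun_mul]
  · have hc : ((χ γ : ℂ) * (χ' γ : ℂ)) ≠ 0 := mul_ne_zero (Units.ne_zero _) (Units.ne_zero _)
    have := toNF_moeb_smul hq (γ : SL(2, ℤ)) hc (fun y hy => by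
      show g (moeb (γ : SL(2, ℤ)) y) * g' (moeb (γ : SL(2, ℤ)) y) = _
      rw [hgχ γ y hy, hgχ' γ y hy]
      ring) z hz
    rw [this]
    simp

/-- **Inverses.** -/
theorem IsRootChar.inv {N p : ℕ} [NeZero N] {u : FC N} (hu : u ≠ 0) {χ : Gamma0 N →* ℂˣ}
    (h : IsRootChar N p u χ) : IsRootChar N p u⁻¹ χ⁻¹ := by
  obtain ⟨A, B, g, hB, hAB, hg, hgp, hgχ⟩ := h
  have hA := ThetaC_ne_zero_of_rep hu hB hAB
  have hb : evFC N B ≠ 0 := (ThetaC_ne_zero_iff N B).1 hB
  have hq : MeromorphicOn (fun z => (g z)⁻¹) UH := fun z hz => (hg hz).meromorphicAt.inv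
  refine ⟨B, A, toMeromorphicNFOn (fun z => (g z)⁻¹) UH, hA, ?_,
    meromorphicNFOn_toMeromorphicNFOn _ _, fun z hz => ?_, fun γ z hz => ?_⟩
  · rw [← hAB]
    field_simp
  · filter_upwards [hq.toMeromorphicNFOn_eq_self_on_nhdsNE hz, hgp z hz] with y hy1 hy2
    rw [hy1, inv_pow, hy2]
    unfold quotFun
    rw [inv_div]
  · have hc : ((χ γ : ℂ))⁻¹ ≠ 0 := inv_ne_zero (Units.ne_zero _)
    have := toNF_moeb_smul hq (γ : SL(2, ℤ)) hc (fun y hy => by
      show (g (moeb (γ : SL(2, ℤ)) y))⁻¹ = _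
      rw [hgχ γ y hy, mul_inv]) z hz
    rw [this]
    simp

/-- **`p`-th powers have trivial character.** -/
theorem isRootChar_pow {N : ℕ} [NeZero N] (p : ℕ) (w : FC N) : IsRootChar N p (w ^ p) 1 := by
  obtain ⟨A, B, hB, hAB⟩ := exists_rep N w
  have hq := meromorphicOn_quotFun N A B
  have hBp : ThetaC N (B ^ p) ≠ 0 := by
    rw [ThetaC_ne_zero_iff, map_pow]
    exact pow_ne_zero _ ((ThetaC_ne_zero_iff N B).1 hB)
  refine ⟨A ^ p, B ^ p, toMeromorphicNFOn (quotFun N A B) UH, hBp, ?_,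
    meromorphicNFOn_toMeromorphicNFOn _ _, fun z hz => ?_, fun γ z hz => ?_⟩
  · rw [map_pow, map_pow, ← hAB, mul_pow]
  · filter_upwards [hq.toMeromorphicNFOn_eq_self_on_nhdsNE hz] with y hy1
    rw [hy1]
    unfold quotFun
    rw [map_pow, map_pow, Pi.pow_apply, Pi.pow_apply, div_pow]
  · rw [toNF_moeb_invariant hq (γ : SL(2, ℤ)) (fun y hy => quotFun_moeb N A B γ.2 hy) z hz]
    simp

/-- the constant `1` has trivial character -/
theorem isRootChar_one {N : ℕ} [NeZero N] (p : ℕ) : IsRootChar N p (1 : FC N) 1 := by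
  have := isRootChar_pow p (1 : FC N)
  rwa [one_pow] at this

/-- **Trivial character ⟹ `p`-th power**: the kernel of the analytic Kummer map. -/
theorem exists_pow_of_isRootChar_one {N : ℕ} [NeZero N] {p : ℕ} (hp : p ≠ 0) {u : FC N}
    (hu : u ≠ 0) (h : IsRootChar N p u 1) : ∃ w : FC N, w ≠ 0 ∧ u = w ^ p := by
  obtain ⟨w, hw, huw⟩ := exists_pow_of_isRootChar hp hu one_ne_zero h (isRootChar_one p)
  exact ⟨w, hw, by rw [huw, one_mul]⟩

/-- Two elements with the same character differ by a `p`-th power; conversely multiplying by a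
`p`-th power does not change the character. -/
theorem IsRootChar.mul_pow {N p : ℕ} [NeZero N] {u : FC N} {χ : Gamma0 N →* ℂˣ}
    (h : IsRootChar N p u χ) (w : FC N) : IsRootChar N p (u * w ^ p) χ := by
  have h1 := h.mul (isRootChar_pow p w)
  have e : χ * 1 = χ := by
    ext γ
    simp
  rwa [e] at h1

end Fermat.Agent.S29.H85
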